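/-
S36 / BAD, block ETAINST (architect helper210), node (AL) (owner helper24).

The Atkin-Lehner involution `w_q` acts on the modular unit `x = G(τ) / G(q τ)` of level `N0 q`
(`G` a weight one form on `Γ₀(a)` with quadratic character `χ`, `a ∣ N0`, `(q, N0) = 1`) by

  `w_q x * x = χ(q) q`.

PROOF.  `γ = !![v, u; N0, q] ∈ SL(2,ℤ) ∩ Γ₀(a)`.  The ring homomorphisms
`f ↦ (w_q f)(t ^ N0)` and `f ↦ expansion of f ∘ γ` from `FK K (N0 q)` to `ℚ̄((t))` agree on the
constants and on the generators `j(t^δ)` (`AL.expAt_JF`), hence everywhere; on the unit the second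
one is given by `Lib.EtaUnit.texpL_smul_unitF`.
-/
import Fermat.Agent.S36.Mod.Setup
import Fermat.Agent.Lib.EtaUnit.Main

set_option autoImplicit false
set_option linter.unusedSectionVars false

noncomputable section

namespace Fermat.Agent.BAD.Model.EtaInst

open UpperHalfPlane ModularCurve CongruenceSubgroup
open Fermat.Agent.S24 Fermat.Agent.S24.B Fermat.Agent.S18 Fermat.Agent.S18.Descent
open Fermat.Agent.S36.Mod Fermat.Agent.Lib.EtaUnit
open scoped MatrixGroups Real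

variable (K : Type*) [Field K] [Algebra ℚ K] [Algebra K Kbar]

/-- extension of the constants from `K` to `ℚ̄`. -/
abbrev toBarK (N : ℕ) : FK K N →+* FN N :=
  baseChangeMap (modularFunctionFieldFull N) (algebraMap K Kbar)

/-- **The Atkin-Lehner involution over `K` is `f ↦ f ∘ γ`**, `γ = !![v, u; N0, Q]`. -/
theorem phiM_toBarK_wAL (N N0 Q : ℕ) [NeZero N] [NeZero N0] (hN : N = N0 * Q)
    (hcop : N0.Coprime Q) (v u : ℤ) (hdet : v * Q - u * N0 = 1) (γ : SL(2, ℤ))
    (hγ : γ.1 = !![v, u; (N0 : ℤ), (Q : ℤ)]) (f : FK K N) :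
    AL.phiM N N0 (toBarK K N (wAL K N N0 Q hN hcop f)) = AL.expAt N γ (toBarK K N f) := by
  have hN0 : N ≠ 0 := NeZero.ne N
  have hQ0 : Q ≠ 0 := by
    rintro rfl
    exact hN0 (by rw [hN, mul_zero])
  have hN00 : N0 ≠ 0 := NeZero.ne N0
  let f1 : FK K N →+* LaurentSeries Kbar :=
    ((AL.phiM N N0 : FN N →ₐ[Kbar] LaurentSeries Kbar) : FN N →+* LaurentSeries Kbar).comp
      ((toBarK K N).comp ((wAL K N N0 Q hN hcop : FK K N →ₐ[K] FK K N) : FK K N →+* FK K N))
  let f2 : FK K N →+* LaurentSeries Kbar :=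
    ((AL.expAt N γ : FN N →ₐ[Kbar] LaurentSeries Kbar) : FN N →+* LaurentSeries Kbar).comp
      (toBarK K N)
  have key : f1 = f2 := by
    apply ringHom_ext_JK
    · intro c
      show AL.phiM N N0 (toBarK K N (wAL K N N0 Q hN hcop (algebraMap K (FK K N) c))) =
        AL.expAt N γ (toBarK K N (algebraMap K (FK K N) c))
      rw [AlgHom.commutes, baseChangeMap_algebraMap]
      exact ((AL.phiM N N0).commutes _).trans ((AL.expAt N γ).commutes _).symm
    · intro d _ hd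
      obtain ⟨d0, e, e', rfl, hd0, he, he0, he'0⟩ := EmbK.exists_factor hQ0 (hN ▸ hd)
      have : NeZero d0 := ⟨fun h => hN00 (by rw [h] at hd0; exact Nat.eq_zero_of_zero_dvd hd0)⟩
      have : NeZero e := ⟨he0⟩
      have : NeZero e' := ⟨he'0⟩
      have h2 : d0 * e' ∣ N := by
        rw [hN]
        exact Nat.mul_dvd_mul hd0 ⟨e, by rw [← he, mul_comm]⟩
      show AL.phiM N N0 (toBarK K N (wAL K N N0 Q hN hcop (JK K N (d0 * e) hd))) =
        AL.expAt N γ (toBarK K N (JK K N (d0 * e) hd))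
      rw [wAL_JK K N N0 Q hN hcop d0 e e' hd0 he hd h2, EmbK.toBar_JK, EmbK.toBar_JK,
        AL.expAt_JF v u N0 Q d0 e e' hN hdet hd0 he γ hγ hd h2]
  exact congrArg (fun φ : FK K N →+* LaurentSeries Kbar => φ f) key

variable {a : ℕ} {χ : ℤ → ℤ} {G : ℍ → ℂ} {Gs : PowerSeries ℤ}

/-- The expansion of `x ∘ γ`, `x = G(τ) / G(q τ)`, `γ = !![v, u; N0, q]`. -/
theorem expAt_unitF (h : IsW1 a χ G Gs) (N N0 q : ℕ) [NeZero N] [NeZero N0] [NeZero q]
    (hN : N = N0 * q) (ha : a ∣ N0) (hqa : Nat.Coprime q a) (hN' : a * q ∣ N) (v u : ℤ)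
    (γ : SL(2, ℤ)) (hγ : γ.1 = !![v, u; (N0 : ℤ), (q : ℤ)]) :
    AL.expAt N γ (unitF h q N hqa hN') =
      HahnSeries.C (((χ q * q : ℤ) : Kbar)) * AL.phiM N N0 (unitF h q N hqa hN')⁻¹ := by
  have h10 : γ 1 0 = N0 := by
    show γ.1 1 0 = N0
    rw [hγ]; rfl
  have h11 : γ 1 1 = q := by
    show γ.1 1 1 = q
    rw [hγ]; rfl
  have hγa : γ ∈ Gamma0 a := by
    rw [Gamma0_mem, h10]
    obtain ⟨c, rfl⟩ := ha
    simp
  have hq0 : (0 : ℤ) < q := by exact_mod_cast Nat.pos_of_ne_zero (NeZero.ne q)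
  have key := texpL_smul_unitF h q N hqa hN' γ hγa 1 0 q N0 one_pos hq0 (one_mul _)
    (by rw [h10, mul_one]) (by rw [h11, mul_zero, sub_zero]) N0
    (by rw [hN]; push_cast; ring) 1 (by simp)
  show texpL N (γ⁻¹ • Psi N (unitF h q N hqa hN')) = _
  rw [key, twist_one, AL.phiM_apply]
  congr 1
  show _ = qExpand Kbar N0 (xser Gs q)⁻¹
  rw [xser, inv_div, map_div₀, qExpand_qExpand]
  congr 1
  exact qExpand_congr hN _

/-- **(AL)**: `w_q x * x = χ(q) q` for every `x` of level `N0 q` over `K` with the `q`-expansion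
`G(t) / G(t^q)`. -/
theorem wAL_mul_self (h : IsW1 a χ G Gs) (N N0 q : ℕ) [NeZero N] [NeZero q] (hN : N = N0 * q)
    (hcop : N0.Coprime q) (ha : a ∣ N0) (x : FK K N)
    (hx : coeffMap (algebraMap K Kbar) (x : LaurentSeries K) = xser Gs q) :
    wAL K N N0 q hN hcop x * x = ((χ q * q : ℤ) : FK K N) := by
  have : NeZero N0 := ⟨by
    rintro rfl
    exact NeZero.ne N (by rw [hN, zero_mul])⟩
  have hqa : Nat.Coprime q a := (Nat.Coprime.coprime_dvd_left ha hcop).symm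
  have hN' : a * q ∣ N := hN ▸ Nat.mul_dvd_mul_right ha q
  obtain ⟨u, v, huv⟩ := Nat.isCoprime_iff_coprime.mpr hcop
  have hdet : v * q - (-u) * N0 = 1 := by linarith
  have hdet' : (!![v, -u; (N0 : ℤ), (q : ℤ)]).det = 1 := by
    rw [Matrix.det_fin_two_of]; exact hdet
  set γ : SL(2, ℤ) := ⟨!![v, -u; (N0 : ℤ), (q : ℤ)], hdet'⟩ with hγ
  have hxb : toBarK K N x = unitF h q N hqa hN' := Subtype.ext hx
  have h1 := phiM_toBarK_wAL K N N0 q hN hcop v (-u) hdet γ rfl x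
  rw [hxb, expAt_unitF h N N0 q hN ha hqa hN' v (-u) γ rfl] at h1
  have hC : HahnSeries.C (((χ q * q : ℤ) : Kbar)) =
      AL.phiM N N0 (((χ q * q : ℤ) : FN N)) := by
    rw [map_intCast (AL.phiM N N0)]
    exact (map_intCast (HahnSeries.C : Kbar →+* LaurentSeries Kbar) _)
  rw [hC, ← map_mul] at h1
  have h2 := AL.phiM_injective N0 h1
  apply baseChangeMap_injective (F₀ := modularFunctionFieldFull N) (algebraMap K Kbar)
  show toBarK K N (wAL K N N0 q hN hcop x * x) = toBarK K N ((χ q * q : ℤ) : FK K N)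
  rw [map_mul, h2, hxb, map_intCast, mul_assoc, inv_mul_cancel₀ (unitF_ne_zero h q N hqa hN'),
    mul_one]

/-- **(AL)** in the language of `Setup`. -/
theorem w1_mul_self {K K' : Type*} [Field K] [Field K'] [Algebra ℚ K] [Algebra ℚ K']
    [Algebra K Kbar] [Algebra K' Kbar] (S : Setup K K') (h : IsW1 a χ G Gs) (ha : a ∣ S.N0)
    (x : S.F1) (hx : coeffMap (algebraMap K Kbar) (x : LaurentSeries K) = xser Gs S.q) :
    S.w1 x * x = ((χ S.q * S.q : ℤ) : S.F1) :=
  wAL_mul_self K h (S.N0 * S.q) S.N0 S.q rfl S.coprime ha x hx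

end Fermat.Agent.BAD.Model.EtaInst

end
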