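/-
Project BAD, layer L-MOD, block ETAINST (sub-architect helper210): the MODULAR INSTANCE of
`NonCuspData` (helper149) in the language of `S36.Mod.Setup` (helper156), from the eta quotients of
`Lib/EtaFN` and `Lib/EtaUnit`.  Definitions.

* `UnitData S Gz ε x` : `x = G(t)/G(t^q) ∈ F1`, `G = Gz ∈ 1 + tℤ[[t]]` (a weight one eta quotient
  without zeros, with quadratic character `χ`), `ε = χ(q) = ±1`, `w_q x * x = ε q`, and `x`, `q / x`
  are integral over `ℤ[j]`.
* `HauptData S Gz Tz t` : `t = t⁻¹ Tz ∈ F0` is a modular unit of the auxiliary level with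
  `θ t / t = - G²`.
-/
import Fermat.Agent.S36.Mod.Setup
import Fermat.Agent.BAD.Model.NonCusp.Defs
import Fermat.Agent.Lib.Hauptmodul.Defs

set_option autoImplicit false

noncomputable section

namespace Fermat.Agent.BAD.Model.EtaInst

open ModularCurve Fermat.Agent.S24 Fermat.Agent.S18 Fermat.Agent.S18.Vert Fermat.Agent.S36.Mod
open Fermat.Agent.Lib.Hauptmodul (toL dilZ etaProdInv)

/-- the inverse of an integral power series with constant coefficient one. -/
def invZ (P : PowerSeries ℤ) : PowerSeries ℤ := P.invOfUnit 1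

/-- `θ² = η(2τ)^10 / (η(τ) η(4τ))^4` -/
def G4z : PowerSeries ℤ := dilZ 2 etaProd ^ 10 * etaProdInv ^ 4 * dilZ 4 etaProdInv ^ 4

/-- `η(τ)^3 / η(3τ)` -/
def G9z : PowerSeries ℤ := etaProd ^ 3 * dilZ 3 etaProdInv

/-- `t₄ = η(τ)^8 / η(4τ)^8 = q⁻¹ T4z` -/
def T4z : PowerSeries ℤ := etaProd ^ 8 * dilZ 4 etaProdInv ^ 8

/-- `y` is integral over `ℤ[a]`. -/
def IntOver {B : Type*} [CommRing B] (a y : B) : Prop := IsIntegral (Algebra.adjoin ℤ {a}) y

/-- `j` at level `N` over `L`. -/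
abbrev jj (L : Type*) [Field L] [Algebra ℚ L] (N : ℕ) : FK L N := JK L N 1 (one_dvd N)

variable {K K' : Type*} [Field K] [Field K'] [Algebra ℚ K] [Algebra ℚ K'] [Algebra K Kbar]
  [Algebra K' Kbar]

/-- The modular unit `x = G(t) / G(t^q)` of level `N0 q`. -/
structure UnitData (S : Setup K K') (Gz : PowerSeries ℤ) (ε : ℤ) (x : S.F1) : Prop where
  const : PowerSeries.constantCoeff Gz = 1
  eps : ε = 1 ∨ ε = -1
  coe : (x : LaurentSeries K) = toL K Gz * qExpand K S.q (toL K (invZ Gz))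
  al : S.w1 x * x = ((ε : ℤ) : S.F1) * ((S.q : ℕ) : S.F1)
  int : IntOver (jj K (S.N0 * S.q)) x
  int' : IntOver (jj K (S.N0 * S.q)) (((S.q : ℕ) : S.F1) * x⁻¹)

/-- The modular unit `t = t⁻¹ Tz` of level `N0`, with `θ t / t = - G²`, i.e.
`X T' - T = - G² T`; `t` and `m / t` are integral over `ℤ[j]`, `m` prime to `q`. -/
structure HauptData (S : Setup K K') (Gz Tz : PowerSeries ℤ) (t : S.F0) : Prop where
  const : PowerSeries.constantCoeff Tz = 1
  coe : (t : LaurentSeries K) = HahnSeries.single (-1 : ℤ) 1 * toL K Tz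
  der : PowerSeries.X * PowerSeries.derivative ℤ Tz - Tz = - (Gz ^ 2 * Tz)
  int : IntOver (jj K S.N0) t
  int' : ∃ m : ℕ, m.Coprime S.q ∧ IntOver (jj K S.N0) ((m : S.F0) * t⁻¹)

/-- The three indicator functions. -/
def Yf (S : Setup K K') (x : S.F1) : Fin 3 → S.F2 :=
  ![((S.q : ℕ) : S.F2) * (S.be1 x)⁻¹, S.be1 x * (S.al1 x)⁻¹, S.al1 x]

/-- The three vertical valuation rings. -/
def Vf (S : Setup K K') : Fin 3 → ValuationSubring S.F2 := ![S.V20, S.V11, S.V02]

/-- `t(q² τ) / t(τ) - 1`. -/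
def zf (S : Setup K K') (t : S.F0) : S.F2 := S.be1 (S.be0 t) * (S.al1 (S.al0 t))⁻¹ - 1

/-- The constants of the congruences. -/
def ef (S : Setup K K') (ε : ℤ) : Fin 4 → S.F2 :=
  ![1, ((ε : ℤ) : S.F2), ((ε : ℤ) : S.F2) ^ (S.q - 1), - ((ε : ℤ) : S.F2)]

end Fermat.Agent.BAD.Model.EtaInst

end
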