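/-
Project BAD, block ETAINST, node I1 (owner helper162): calculus of `IntOver a y`
(`y` is integral over `ℤ[a]`).  Commutative algebra only.
-/
import Fermat.Agent.BAD.Model.EtaInst.Defs

set_option autoImplicit false

noncomputable section

namespace Fermat.Agent.BAD.Model.EtaInst

section Int

variable {B B' : Type*} [CommRing B] [CommRing B']

/-- `ℤ[X] → ℤ[a]`. -/
def intOverPsi (a : B) : Polynomial ℤ →+* Algebra.adjoin ℤ {a} :=
  ((Polynomial.aeval (R := ℤ) a).codRestrict (Algebra.adjoin ℤ {a})
    (fun _ => Polynomial.aeval_mem_adjoin_singleton ℤ a)).toRingHom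

theorem intOverPsi_surjective (a : B) : Function.Surjective (intOverPsi a) := by
  rintro ⟨s, hs⟩
  have hs' := hs
  rw [Algebra.adjoin_singleton_eq_range_aeval] at hs'
  obtain ⟨p, hp⟩ := hs'
  exact ⟨p, Subtype.ext hp⟩

theorem intOverPsi_comp (a : B) :
    (algebraMap (Algebra.adjoin ℤ {a}) B).comp (intOverPsi a) =
      (Polynomial.aeval (R := ℤ) a).toRingHom := rfl

/-- normal form: `y` is a root of a monic polynomial with coefficients in the image of `ℤ[X]`. -/
theorem intOver_iff {a y : B} :
    IntOver a y ↔ ((Polynomial.aeval (R := ℤ) a).toRingHom).IsIntegralElem y := by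
  constructor
  · rintro ⟨p, hp, h0⟩
    obtain ⟨P, hP, -, hmon⟩ := Polynomial.lifts_and_natDegree_eq_and_monic
      (f := intOverPsi a) (p := p)
      ((Polynomial.mem_lifts p).mpr (Polynomial.map_surjective _ (intOverPsi_surjective a) p)) hp
    refine ⟨P, hmon, ?_⟩
    rw [← intOverPsi_comp, ← Polynomial.eval₂_map, hP]
    exact h0
  · intro h
    rw [← intOverPsi_comp] at h
    exact h.of_comp

theorem intOver_comp_aeval (φ : B →+* B') (a : B) :
    φ.comp (Polynomial.aeval (R := ℤ) a).toRingHom =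
      (Polynomial.aeval (R := ℤ) (φ a)).toRingHom := by
  refine Polynomial.ringHom_ext (fun c => ?_) ?_
  · simp
  · simp

/-- I1 `IntOver.lean` -/
theorem IntOver.map (φ : B →+* B') {a y : B} (h : IntOver a y) : IntOver (φ a) (φ y) := by
  rw [intOver_iff] at h ⊢
  rw [← intOver_comp_aeval]
  exact h.map φ

/-- I1 `IntOver.lean` -/
theorem IntOver.of_map (φ : B →+* B') (hφ : Function.Injective φ) {a y : B}
    (h : IntOver (φ a) (φ y)) : IntOver a y := by
  rw [intOver_iff] at h ⊢
  rw [← intOver_comp_aeval] at h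
  exact h.of_map hφ

/-- I1 `IntOver.lean` -/
theorem IntOver.trans {a b y : B} (h1 : IntOver a b) (h2 : IntOver b y) : IntOver a y := by
  let C := integralClosure (Algebra.adjoin ℤ {a}) B
  have hb : b ∈ C := h1
  have hle : Algebra.adjoin ℤ {b} ≤ C.restrictScalars ℤ :=
    Algebra.adjoin_le (Set.singleton_subset_iff.mpr hb)
  have hy : IsIntegral C y :=
    IsIntegral.map_of_comp_eq (Subalgebra.inclusion hle).toRingHom (RingHom.id B) rfl h2
  exact isIntegral_trans (R := Algebra.adjoin ℤ {a}) (A := C) y hy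

/-- I1 `IntOver.lean` -/
theorem IntOver.mem {F : Type*} [Field F] {R : Subring F} (hcl : ∀ y : F, IsIntegral R y → y ∈ R)
    {a y : F} (ha : a ∈ R) (h : IntOver a y) : y ∈ R := by
  apply hcl
  rw [intOver_iff] at h
  have hcomp : (algebraMap R F).comp (Polynomial.aeval (R := ℤ) (⟨a, ha⟩ : R)).toRingHom =
      (Polynomial.aeval (R := ℤ) a).toRingHom := intOver_comp_aeval (algebraMap R F) ⟨a, ha⟩
  rw [← hcomp] at h
  exact h.of_comp

/-- I1 `IntOver.lean` -/
theorem IntOver.mul {a y y' : B} (h : IntOver a y) (h' : IntOver a y') : IntOver a (y * y') :=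
  IsIntegral.mul h h'

end Int

end Fermat.Agent.BAD.Model.EtaInst
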