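/-
Project BAD, block ETAINST, node I2: `j(t^d)` is integral over `ℤ[j]`, over any field `L ⊆ ℚ̄`
(from `S37.jInt` by descent along the injective base change map).
-/
import Fermat.Agent.BAD.Model.EtaInst.IntOver
import Fermat.Agent.S36.Mod.EmbK
import Fermat.Agent.S37.JInt

set_option autoImplicit false

noncomputable section

namespace Fermat.Agent.BAD.Model.EtaInst

open ModularCurve Fermat.Agent.S24 Fermat.Agent.S18 Fermat.Agent.S18.Vert Fermat.Agent.S36.Mod
  Fermat.Agent.S36.BP Fermat.Agent.S18.Descent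

/-- I2 `IntJ.lean`.  `j(t^d)` is integral over `ℤ[j]`, over any field `L ⊆ ℚ̄` (`S37.jInt`,
`IntOver.of_map` for `baseChangeMap`). -/
theorem intOver_JK (L : Type*) [Field L] [Algebra ℚ L] [Algebra L Kbar] (N d : ℕ) [NeZero N]
    [NeZero d] (hd : d ∣ N) : IntOver (jj L N) (JK L N d hd) := by
  apply IntOver.of_map (baseChangeMap (modularFunctionFieldFull N) (algebraMap L Kbar))
    (baseChangeMap_injective _)
  rw [jj, EmbK.toBar_JK, EmbK.toBar_JK, intOver_iff]
  exact (Fermat.Agent.S37.jInt N d hd).1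

end Fermat.Agent.BAD.Model.EtaInst

end
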