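/-
Project BAD, block ETAINST (sub-architect helper210), node C1: generator chases.
-/
import Fermat.Agent.BAD.Model.EtaInst.Defs
import Fermat.Agent.S36.Mod.HalfInst.Compose
import Fermat.Agent.BAD.Model.EtaInst.IntJ

set_option autoImplicit false

noncomputable section

namespace Fermat.Agent.BAD.Model.EtaInst

open ModularCurve Fermat.Agent.S24 Fermat.Agent.S18 Fermat.Agent.S18.Vert Fermat.Agent.S36.Mod
  Fermat.Agent.S36.BP Fermat.Agent.S18.Descent
open Fermat.Agent.Lib.Hauptmodul (toL dilZ etaProdInv)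

variable {K K' : Type*} [Field K] [Field K'] [Algebra ℚ K] [Algebra ℚ K'] [Algebra K Kbar]
  [Algebra K' Kbar] (S : Setup K K')

/-- C1 `Chase.lean` (as `w2_al1` in `S36/Mod/HalfInst/Compose.lean`). -/
theorem w1_be0 (f : S.F0) : S.w1 (S.be0 f) = S.al0 f := by
  have key : S.w1.comp S.be0 = S.al0 := by
    apply algHom_ext_JK
    intro d _ hd
    have h1 : S.q * d ∣ S.N0 * S.q := by
      rw [mul_comm]; exact Nat.mul_dvd_mul_right hd _
    have h2 : d * S.q ∣ S.N0 * S.q := Nat.mul_dvd_mul_right hd _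
    have h3 : d * 1 ∣ S.N0 * S.q := by rw [mul_one]; exact hd.mul_right _
    rw [AlgHom.comp_apply, Setup.be0, be_JK _ _ _ _ h1,
      JK_congr K _ (mul_comm S.q d) h1 h2, Setup.w1,
      wAL_JK K _ S.N0 S.q _ _ d S.q 1 hd (mul_one _) h2 h3, Setup.al0, al_JK]
    exact JK_congr K _ (mul_one d) _ _
  exact congrArg (fun φ : S.F0 →ₐ[K] S.F1 => φ f) key

/-- C1 `Chase.lean` -/
theorem e11_al1_al0 (f : S.F0) :
    S.e11.toHom (S.al1 (S.al0 f)) = coeffMap S.ι (f : LaurentSeries K) := by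
  rw [Setup.e11_al1, Setup.e1oo, stdEmb_toHom_apply, Setup.al0, coe_heckeAlphaBar]

/-- C1 `Chase.lean` -/
theorem e11_be1_be0 (f : S.F0) :
    S.e11.toHom (S.be1 (S.be0 f)) = S24.B.twist S.ζ (coeffMap S.ι (f : LaurentSeries K)) := by
  rw [Setup.e11_be1]
  show S24.B.twist S.ζ (coeffMap S.ι ((S.w1 (S.be0 f) : S.F1) : LaurentSeries K)) = _
  rw [w1_be0, Setup.al0, coe_heckeAlphaBar]

/-- C1 `Chase.lean` -/
theorem al1_jj : S.al1 (jj K (S.N0 * S.q)) = jj K (S.N0 * S.q * S.q) := by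
  rw [Setup.al1, jj, al_JK]

/-- C1 `Chase.lean` -/
theorem al0_jj : S.al0 (jj K S.N0) = jj K (S.N0 * S.q) := by
  rw [Setup.al0, jj, al_JK]

/-- C1 `Chase.lean` -/
theorem intOver_be1_jj : IntOver (jj K (S.N0 * S.q * S.q)) (S.be1 (jj K (S.N0 * S.q))) := by
  have h : S.q * 1 ∣ S.N0 * S.q * S.q := by rw [mul_one]; exact Dvd.intro_left _ rfl
  rw [Setup.be1, jj, be_JK _ _ _ _ h]
  exact intOver_JK K _ _ h

/-- C1 `Chase.lean` -/
theorem intOver_be0_jj : IntOver (jj K (S.N0 * S.q)) (S.be0 (jj K S.N0)) := by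
  have h : S.q * 1 ∣ S.N0 * S.q := by rw [mul_one]; exact Dvd.intro_left _ rfl
  rw [Setup.be0, jj, be_JK _ _ _ _ h]
  exact intOver_JK K _ _ h

end Fermat.Agent.BAD.Model.EtaInst

end
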