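/-
Project BAD, block ETAINST (sub-architect helper210), node J5: the first two coefficients of
`G4z = η(2τ)^10 / (η(τ) η(4τ))^4 = 1 + 4 X + O(X²)`.
-/
import Fermat.Agent.BAD.Model.EtaInst.Defs

set_option autoImplicit false

noncomputable section

namespace Fermat.Agent.BAD.Model.EtaInst

open ModularCurve
open Fermat.Agent.Lib.Hauptmodul (toL dilZ etaProdInv)

/-- `f = a + b X + O(X²)`. -/
def G4Coeff_Is (f : PowerSeries ℤ) (a b : ℤ) : Prop :=
  PowerSeries.coeff 0 f = a ∧ PowerSeries.coeff 1 f = b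

theorem G4Coeff_Is.mul {f g : PowerSeries ℤ} {a b c d : ℤ} (hf : G4Coeff_Is f a b)
    (hg : G4Coeff_Is g c d) : G4Coeff_Is (f * g) (a * c) (a * d + b * c) := by
  constructor
  · rw [PowerSeries.coeff_mul, Finset.Nat.antidiagonal_zero, Finset.sum_singleton, hf.1, hg.1]
  · rw [PowerSeries.coeff_mul, Finset.Nat.sum_antidiagonal_eq_sum_range_succ
      (fun i j => PowerSeries.coeff i f * PowerSeries.coeff j g), Finset.sum_range_succ,
      Finset.sum_range_one]
    simp only [Nat.sub_zero, Nat.sub_self]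
    rw [hf.1, hf.2, hg.1, hg.2]

theorem G4Coeff_Is.one : G4Coeff_Is 1 1 0 := by
  constructor
  · simp
  · rw [PowerSeries.coeff_one]; simp

theorem G4Coeff_Is.pow {f : PowerSeries ℤ} {b : ℤ} (hf : G4Coeff_Is f 1 b) (m : ℕ) :
    G4Coeff_Is (f ^ m) 1 (m * b) := by
  induction m with
  | zero => simpa using G4Coeff_Is.one
  | succ m ih =>
    rw [pow_succ]
    have h := ih.mul hf
    have e1 : (1 : ℤ) * 1 = 1 := by ring
    have e2 : (1 : ℤ) * b + (m : ℤ) * b * 1 = ((m + 1 : ℕ) : ℤ) * b := by push_cast; ring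
    rwa [e1, e2] at h

theorem G4Coeff_Is.factor (n : ℕ) (hn : n ≠ 0) :
    G4Coeff_Is (1 - PowerSeries.X ^ (n + 1)) 1 0 := by
  constructor
  · rw [map_sub, PowerSeries.coeff_one, PowerSeries.coeff_X_pow]; simp
  · rw [map_sub, PowerSeries.coeff_one, PowerSeries.coeff_X_pow]
    simp [hn]

theorem G4Coeff_Is.factor_zero : G4Coeff_Is (1 - PowerSeries.X ^ (0 + 1)) 1 (-1) := by
  constructor
  · rw [map_sub, PowerSeries.coeff_one, PowerSeries.coeff_X_pow]; simp
  · rw [map_sub, PowerSeries.coeff_one, PowerSeries.coeff_X_pow]; simp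

theorem G4Coeff_prod_of_not_mem (s : Finset ℕ) (hs : 0 ∉ s) :
    G4Coeff_Is (∏ n ∈ s, (1 - PowerSeries.X ^ (n + 1))) 1 0 := by
  refine Finset.prod_induction (fun n : ℕ => (1 - PowerSeries.X ^ (n + 1) : PowerSeries ℤ))
    (fun f => G4Coeff_Is f 1 0) ?_ G4Coeff_Is.one ?_
  · intro f g hf hg
    simpa using hf.mul hg
  · intro n hn
    exact G4Coeff_Is.factor n (fun h => hs (h ▸ hn))

theorem G4Coeff_prod_of_mem (s : Finset ℕ) (hs : 0 ∈ s) :
    G4Coeff_Is (∏ n ∈ s, (1 - PowerSeries.X ^ (n + 1))) 1 (-1) := by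
  rw [← Finset.mul_prod_erase s _ hs]
  simpa using G4Coeff_Is.factor_zero.mul (G4Coeff_prod_of_not_mem (s.erase 0) (by simp))

theorem G4Coeff_etaProd : G4Coeff_Is etaProd 1 (-1) := by
  refine ⟨by rw [PowerSeries.coeff_zero_eq_constantCoeff_apply, constantCoeff_etaProd], ?_⟩
  open scoped PowerSeries.WithPiTopology in
  have h1 := (PowerSeries.WithPiTopology.multipliable_one_sub_X_pow ℤ).hasProd
  have h2 : Filter.Tendsto (fun s : Finset ℕ =>
      PowerSeries.coeff 1 (∏ n ∈ s, (1 - PowerSeries.X ^ (n + 1) : PowerSeries ℤ))) Filter.atTop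
      (nhds (PowerSeries.coeff 1 etaProd)) :=
    ((PowerSeries.WithPiTopology.continuous_coeff ℤ 1).tendsto _).comp h1
  have h3 : Filter.Tendsto (fun s : Finset ℕ =>
      PowerSeries.coeff 1 (∏ n ∈ s, (1 - PowerSeries.X ^ (n + 1) : PowerSeries ℤ))) Filter.atTop
      (nhds (-1 : ℤ)) := by
    refine tendsto_const_nhds.congr' ?_
    filter_upwards [Filter.eventually_ge_atTop ({0} : Finset ℕ)] with s hs
    exact (G4Coeff_prod_of_mem s (hs (Finset.mem_singleton_self 0))).2.symm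
  exact tendsto_nhds_unique h2 h3

theorem G4Coeff_etaProdInv : G4Coeff_Is etaProdInv 1 1 := by
  have h := Fermat.Agent.Lib.Hauptmodul.etaProd_mul_inv
  have h0 : PowerSeries.coeff 0 etaProdInv = 1 := by
    have := congrArg (PowerSeries.coeff 0) h
    rw [PowerSeries.coeff_mul, Finset.Nat.antidiagonal_zero, Finset.sum_singleton,
      G4Coeff_etaProd.1, one_mul] at this
    simpa using this
  refine ⟨h0, ?_⟩
  have h1 := (G4Coeff_etaProd.mul (⟨h0, rfl⟩ : G4Coeff_Is etaProdInv 1 _)).2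
  rw [h, PowerSeries.coeff_one] at h1
  simp at h1
  linarith

theorem G4Coeff_dilZ (d : ℕ) (hd : 2 ≤ d) {f : PowerSeries ℤ} {a b : ℤ} (hf : G4Coeff_Is f a b) :
    G4Coeff_Is (dilZ d f) a 0 := by
  constructor
  · rw [dilZ, PowerSeries.coeff_mk, if_pos (dvd_zero d), Nat.zero_div, hf.1]
  · rw [dilZ, PowerSeries.coeff_mk, if_neg]
    intro h
    have := Nat.le_of_dvd one_pos h
    omega

/-- J5 `G4Coeff.lean` -/
theorem coeff_G4z : PowerSeries.coeff 0 G4z = 1 ∧ PowerSeries.coeff 1 G4z = 4 := by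
  have h1 := (G4Coeff_dilZ 2 le_rfl G4Coeff_etaProd).pow 10
  have h2 := G4Coeff_etaProdInv.pow 4
  have h3 := (G4Coeff_dilZ 4 (by norm_num) G4Coeff_etaProdInv).pow 4
  have h := (h1.mul h2).mul h3
  norm_num at h
  exact h

end Fermat.Agent.BAD.Model.EtaInst

end
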