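/-
Project BAD, block ETAINST (sub-architect helper210), node M1: the formal series of the eta quotients
`G₄`, `G₉`, `t₄` and of the ratios `G(τ) / G(q τ)` in terms of `toL`, `dilZ`, `etaProd`.
-/
import Fermat.Agent.BAD.Model.EtaInst.Defs
import Fermat.Agent.Lib.EtaFN.Defs
import Fermat.Agent.Lib.Hauptmodul.Basic

set_option autoImplicit false

noncomputable section

namespace Fermat.Agent.BAD.Model.EtaInst

open ModularCurve Fermat.Agent.S24 Fermat.Agent.S18 Fermat.Agent.S18.Vert Fermat.Agent.S36.Mod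
open Fermat.Agent.Lib.Hauptmodul (toL dilZ etaProdInv)
open Fermat.Agent.Lib

theorem SerId.eulerSer_eq : EtaFN.eulerSer = toL Kbar etaProd := rfl

theorem SerId.eulerSerD_eq (d : ℕ) [NeZero d] :
    EtaFN.eulerSerD d = toL Kbar (dilZ d etaProd) := by
  rw [EtaFN.eulerSerD_eq, SerId.eulerSer_eq, Hauptmodul.toL_dilZ]

theorem SerId.dilZ_one_left (P : PowerSeries ℤ) : dilZ 1 P = P := by
  ext n
  rw [dilZ, PowerSeries.coeff_mk, if_pos (one_dvd n), Nat.div_one]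

theorem SerId.dilZ_mul_inv (d : ℕ) [NeZero d] : dilZ d etaProd * dilZ d etaProdInv = 1 := by
  rw [← Hauptmodul.dilZ_mul, Hauptmodul.etaProd_mul_inv, Hauptmodul.dilZ_one]

theorem SerId.eulerSerD_inv (d : ℕ) [NeZero d] :
    (EtaFN.eulerSerD d)⁻¹ = toL Kbar (dilZ d etaProdInv) := by
  rw [SerId.eulerSerD_eq]
  refine inv_eq_of_mul_eq_one_right ?_
  rw [← map_mul, SerId.dilZ_mul_inv, map_one]

theorem SerId.eulerSerD_zpow (d : ℕ) [NeZero d] (n : ℕ) :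
    EtaFN.eulerSerD d ^ (n : ℤ) = toL Kbar (dilZ d etaProd ^ n) := by
  rw [zpow_natCast, map_pow, SerId.eulerSerD_eq]

theorem SerId.eulerSerD_zpow_neg (d : ℕ) [NeZero d] (n : ℕ) :
    EtaFN.eulerSerD d ^ (-(n : ℤ)) = toL Kbar (dilZ d etaProdInv ^ n) := by
  rw [zpow_neg, zpow_natCast, ← inv_pow, map_pow, SerId.eulerSerD_inv]

/-- M1 `SerId.lean` -/
theorem etaSer_D4 : EtaFN.etaSer Finset.univ EtaFN.D4 EtaFN.r4 = toL Kbar G4z := by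
  have e1 : EtaFN.etaSer Finset.univ EtaFN.D4 EtaFN.r4 =
      EtaFN.eulerSerD 1 ^ (-((4 : ℕ) : ℤ)) * (EtaFN.eulerSerD 2 ^ ((10 : ℕ) : ℤ) *
        EtaFN.eulerSerD 4 ^ (-((4 : ℕ) : ℤ))) := by
    simp [EtaFN.etaSer, Fin.prod_univ_succ, EtaFN.D4, EtaFN.r4]
  rw [e1, SerId.eulerSerD_zpow_neg, SerId.eulerSerD_zpow, SerId.eulerSerD_zpow_neg,
    SerId.dilZ_one_left, ← map_mul, ← map_mul, G4z]
  congr 1
  ring

/-- M1 `SerId.lean` -/
theorem etaSer_D9 : EtaFN.etaSer Finset.univ EtaFN.D9 EtaFN.r9 = toL Kbar G9z := by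
  have e1 : EtaFN.etaSer Finset.univ EtaFN.D9 EtaFN.r9 =
      EtaFN.eulerSerD 1 ^ ((3 : ℕ) : ℤ) * EtaFN.eulerSerD 3 ^ (-((1 : ℕ) : ℤ)) := by
    simp [EtaFN.etaSer, Fin.prod_univ_succ, EtaFN.D9, EtaFN.r9]
  rw [e1, SerId.eulerSerD_zpow, SerId.eulerSerD_zpow_neg, SerId.dilZ_one_left, ← map_mul, G9z,
    pow_one]

/-- M1 `SerId.lean` -/
theorem etaSer_Dt4 : EtaFN.etaSer Finset.univ EtaFN.Dt4 EtaFN.rt4 = toL Kbar T4z := by
  have e1 : EtaFN.etaSer Finset.univ EtaFN.Dt4 EtaFN.rt4 =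
      EtaFN.eulerSerD 1 ^ ((8 : ℕ) : ℤ) * EtaFN.eulerSerD 4 ^ (-((8 : ℕ) : ℤ)) := by
    simp [EtaFN.etaSer, Fin.prod_univ_succ, EtaFN.Dt4, EtaFN.rt4]
  rw [e1, SerId.eulerSerD_zpow, SerId.eulerSerD_zpow_neg, SerId.dilZ_one_left, ← map_mul, T4z]

theorem SerId.eulerSerD_mul (q d : ℕ) [NeZero q] [NeZero d] :
    EtaFN.eulerSerD (q * d) = qExpand Kbar q (EtaFN.eulerSerD d) := by
  rw [EtaFN.eulerSerD_eq, EtaFN.eulerSerD_eq, qExpand_qExpand]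

theorem SerId.toL_inv {P : PowerSeries ℤ} (hP : PowerSeries.constantCoeff P = 1) :
    (toL Kbar P)⁻¹ = toL Kbar (invZ P) := by
  refine inv_eq_of_mul_eq_one_right ?_
  rw [← map_mul, invZ, PowerSeries.mul_invOfUnit P 1 (by rw [hP]; rfl), map_one]

/-- M1 `SerId.lean` -/
theorem etaSer_ratio {κ : Type*} [Fintype κ] (D₀ : κ → ℕ) (r₀ : κ → ℤ) (hD₀ : ∀ i, 0 < D₀ i)
    (P : PowerSeries ℤ) (hP : PowerSeries.constantCoeff P = 1)
    (h : EtaFN.etaSer Finset.univ D₀ r₀ = toL Kbar P) (q : ℕ) [NeZero q] :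
    EtaFN.etaSer Finset.univ (EtaFN.ratioD D₀ 1 q) (EtaFN.ratioR r₀) =
      toL Kbar P * qExpand Kbar q (toL Kbar (invZ P)) := by
  have e1 : EtaFN.etaSer Finset.univ (EtaFN.ratioD D₀ 1 q) (EtaFN.ratioR r₀) =
      (∏ i, EtaFN.eulerSerD (1 * D₀ i) ^ r₀ i) * ∏ i, EtaFN.eulerSerD (q * D₀ i) ^ (- r₀ i) := by
    rw [EtaFN.etaSer, Fintype.prod_sum_type]
    rfl
  have e2 : (∏ i, EtaFN.eulerSerD (1 * D₀ i) ^ r₀ i) = toL Kbar P := by
    rw [← h, EtaFN.etaSer]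
    simp only [one_mul]
  have e3 : (∏ i, EtaFN.eulerSerD (q * D₀ i) ^ (- r₀ i)) =
      qExpand Kbar q (toL Kbar (invZ P)) := by
    rw [← SerId.toL_inv hP, ← h, EtaFN.etaSer, ← Finset.prod_inv_distrib, map_prod]
    refine Finset.prod_congr rfl fun i _ => ?_
    have : NeZero (D₀ i) := ⟨(hD₀ i).ne'⟩
    rw [SerId.eulerSerD_mul, zpow_neg, map_inv₀, map_zpow₀]
  rw [e1, e2, e3]

end Fermat.Agent.BAD.Model.EtaInst

end
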