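/-
Project BAD, block ETAINST (sub-architect helper210), node J4 (helper82): the `q`-expansion of the
weight two form `G₄² = (η(2τ)^10 / (η(τ) η(4τ))^4)²` of level `Γ₀(4)`.
-/
import Fermat.Agent.BAD.Model.EtaInst.SerId
import Fermat.Agent.Lib.EtaFN.QExp
import Fermat.Agent.S16.EisP

set_option autoImplicit false

noncomputable section

namespace Fermat.Agent.BAD.Model.EtaInst

open ModularCurve Fermat.Agent.S24 Fermat.Agent.S18 Fermat.Agent.S18.Vert Fermat.Agent.S36.Mod
open Fermat.Agent.Lib.Hauptmodul (toL dilZ etaProdInv)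
open scoped MatrixGroups

open Fermat.Agent.Lib.EtaFN (etaQuot D4 r4)
open CongruenceSubgroup

/-- the coefficients of `toL` in nonnegative degrees. -/
theorem G4Exp_coeff_toL_nat (P : PowerSeries ℤ) (m : ℕ) :
    (toL Kbar P).coeff (m : ℤ) = ((PowerSeries.coeff m P : ℤ) : Kbar) := by
  rw [toL, RingHom.comp_apply, HahnSeries.ofPowerSeries_apply_coeff, PowerSeries.coeff_map,
    eq_intCast]

/-- the coefficients of `toL` in negative degrees. -/
theorem G4Exp_coeff_toL_neg (P : PowerSeries ℤ) (n : ℤ) (hn : n < 0) :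
    (toL Kbar P).coeff n = 0 := by
  rw [toL, RingHom.comp_apply, HahnSeries.ofPowerSeries_apply,
    HahnSeries.embDomain_of_notMem_range]
  rintro ⟨m, hm⟩
  have hm' : (m : ℤ) = n := hm
  omega

/-- the expansion of `G₄²`. -/
theorem G4Exp_hasTExp :
    HasTExp 1 (fun τ => etaQuot Finset.univ D4 r4 τ ^ 2) (toL Kbar (G4z ^ 2)) := by
  have h := Fermat.Agent.Lib.EtaFN.hasTExp_etaQuot (s := (Finset.univ : Finset (Fin 3)))
    (D := D4) (r := r4) (by decide) 0 (by decide)
  rw [etaSer_D4] at h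
  have h1 : (HahnSeries.single (0 : ℤ) (1 : Kbar)) = 1 := rfl
  rw [h1, one_mul] at h
  have h2 := Fermat.Agent.S24.HasTExp.pow h 2
  rw [← map_pow] at h2
  exact h2

/-- J4 `G4Exp.lean` -/
theorem qExpansion_G4sq (f : ModularForm (Gamma0 4) 2)
    (hf : ∀ τ : UpperHalfPlane, f τ = etaQuot Finset.univ D4 r4 τ ^ 2) :
    UpperHalfPlane.qExpansion 1 f = (G4z ^ 2).map (Int.castRingHom ℂ) := by
  ext k
  have hs : ∀ τ : UpperHalfPlane,
      HasSum (fun m : ℕ => ((PowerSeries.coeff m (G4z ^ 2) : ℤ) : ℂ) •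
        Function.Periodic.qParam 1 τ ^ m) (f τ) := by
    intro τ
    have h := Fermat.Agent.S24.HasTExp.hasSum_nat G4Exp_hasTExp
      (G4Exp_coeff_toL_neg (G4z ^ 2)) τ
    rw [hf τ]
    refine h.congr_fun fun m => ?_
    rw [G4Exp_coeff_toL_nat, map_intCast, smul_eq_mul, Nat.cast_one]
  rw [PowerSeries.coeff_map, eq_intCast]
  exact (ModularFormClass.qExpansion_coeff_unique one_pos
    (Fermat.Agent.S16.EisP.one_mem_strictPeriods 4) hs k).symm

end Fermat.Agent.BAD.Model.EtaInst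

end
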