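/-
Project BAD, block ETAINST (sub-architect helper210), node J3 (owner helper294):
`G₄² = (η(2τ)^10 / (η(τ) η(4τ))^4)²` is a modular form of weight two on `Γ₀(4)`.
-/
import Fermat.Agent.Lib.EtaFN.CharEta
import Fermat.Agent.Lib.EtaFN.EtaExp

set_option autoImplicit false

noncomputable section

namespace Fermat.Agent.BAD.Model.EtaInst

open UpperHalfPlane ModularCurve Fermat.Agent.S24 Fermat.Agent.S24.B
open Fermat.Agent.S28.EtaQuot
open Fermat.Agent.Lib.EtaFN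
open CongruenceSubgroup
open scoped MatrixGroups Manifold ModularForm

theorem G4Form.D4_pos : ∀ i ∈ (Finset.univ : Finset (Fin 3)), 0 < D4 i := by decide

theorem G4Form.two_mul_one : 2 * (1 : ℤ) = ∑ i, r4 i := by decide

/-- the gcd's `gcd(D, c)` only depend on `c` modulo `4`. -/
theorem G4Form.gA_emod (c : ℤ) (i : Fin 3) : gA D4 c i = gA D4 (c % 4) i := by
  have h : ((D4 i : ℕ) : ℤ) ∣ 4 := by
    fin_cases i <;> simp [D4] <;> norm_num
  obtain ⟨k, hk⟩ := h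
  unfold gA
  have h1 : c = c % 4 + (D4 i : ℤ) * (k * (c / 4)) := by
    rw [← mul_assoc, ← hk, Int.emod_add_mul_ediv]
  conv_lhs => rw [h1, Int.gcd_add_mul_left_right]

theorem G4Form.gD_emod (c : ℤ) (i : Fin 3) : gD D4 c i = gD D4 (c % 4) i := by
  have h := G4Form.gA_emod c i
  unfold gA at h
  unfold gD
  rw [h]

/-- the order of vanishing of `G₄` at all the cusps is nonnegative. -/
theorem G4Form.exists_order (c : ℤ) : ∃ (e : Fin 3 → ℕ) (m : ℤ), 0 ≤ m ∧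
    (∀ i ∈ (Finset.univ : Finset (Fin 3)), 4 * gA D4 c i = e i * gD D4 c i) ∧
      24 * m = ∑ i, r4 i * (e i : ℤ) := by
  have h0 : 0 ≤ c % 4 := Int.emod_nonneg _ (by norm_num)
  have h1 : c % 4 < 4 := Int.emod_lt_of_pos _ (by norm_num)
  simp only [G4Form.gA_emod c, G4Form.gD_emod c]
  generalize c % 4 = x at h0 h1
  interval_cases x
  · exact ⟨![4, 8, 16], 0, le_refl _, by decide, by decide⟩
  · exact ⟨![4, 2, 1], 0, le_refl _, by decide, by decide⟩
  · exact ⟨![4, 8, 4], 2, by norm_num, by decide, by decide⟩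
  · exact ⟨![4, 2, 1], 0, le_refl _, by decide, by decide⟩

/-- a series of shape `c t^m (1 + ⋯)`, `m ≥ 0`, has no polar part. -/
theorem G4Form.coeff_eq_zero {S : LaurentSeries Kbar} {c : Kbar} {m : ℤ} (h : IsUnitShape S c m)
    (hm : 0 ≤ m) (n : ℤ) (hn : n < 0) : S.coeff n = 0 := by
  obtain ⟨U, -, -, rfl⟩ := h
  rw [Shape.coeff_shape, Shape.coeff_ofPS_neg _ (by omega), mul_zero]

/-- all the translates of `G₄` are bounded at `i∞`. -/
theorem G4Form.isBoundedAtImInfty_slash (γ : SL(2, ℤ)) :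
    IsBoundedAtImInfty (etaQuot Finset.univ D4 r4 ∣[(1 : ℤ)] γ) := by
  obtain ⟨b, c, -, hc⟩ := etaQuot_slash (r := r4) G4Form.D4_pos 1 G4Form.two_mul_one γ
  obtain ⟨e, m, hm0, he, hm⟩ := G4Form.exists_order (γ 1 0)
  obtain ⟨S, c', hS, hshape, -⟩ := hasTExp_etaAffProd (N := 4) (b := b) (r := r4)
    (gA_pos G4Form.D4_pos (γ 1 0)) (gD_pos G4Form.D4_pos (γ 1 0)) e he m hm
  have h1 : IsBoundedAtImInfty (etaAffProd Finset.univ (gA D4 (γ 1 0)) (gD D4 (γ 1 0)) b r4) :=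
    hS.isBoundedAtImInfty (G4Form.coeff_eq_zero hshape hm0)
  have h2 : etaQuot Finset.univ D4 r4 ∣[(1 : ℤ)] γ =
      (fun _ : ℍ => c) * etaAffProd Finset.univ (gA D4 (γ 1 0)) (gD D4 (γ 1 0)) b r4 := by
    funext τ
    rw [hc τ, Pi.mul_apply]
  rw [h2]
  exact (Filter.const_boundedAtFilter _ c).mul h1

theorem G4Form.sq_slash (γ : SL(2, ℤ)) :
    (fun τ : ℍ => etaQuot Finset.univ D4 r4 τ ^ 2) ∣[(2 : ℤ)] γ =
      (etaQuot Finset.univ D4 r4 ∣[(1 : ℤ)] γ) * (etaQuot Finset.univ D4 r4 ∣[(1 : ℤ)] γ) := by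
  have h : (fun τ : ℍ => etaQuot Finset.univ D4 r4 τ ^ 2) =
      etaQuot Finset.univ D4 r4 * etaQuot Finset.univ D4 r4 := by
    funext τ
    rw [Pi.mul_apply, sq]
  rw [h]
  exact ModularForm.mul_slash_SL2 1 1 γ _ _

theorem G4Form.chi4_mul_self (d : ℤ) : chi4 d * chi4 d = 1 := by
  unfold chi4
  split_ifs <;> norm_num

/-- J3 `G4Form.lean`.  `G₄²` is a modular form of weight two on `Γ₀(4)`. -/
theorem exists_G4sq : ∃ f : ModularForm (Gamma0 4) 2,
    ∀ τ : UpperHalfPlane, f τ = etaQuot Finset.univ D4 r4 τ ^ 2 := by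
  refine ⟨{ toFun := fun τ => etaQuot Finset.univ D4 r4 τ ^ 2
            slash_action_eq' := ?_
            holo' := ?_
            bdd_at_cusps' := ?_ }, fun τ => rfl⟩
  · rintro _ ⟨γ, hγ, rfl⟩
    change (fun τ : ℍ => etaQuot Finset.univ D4 r4 τ ^ 2) ∣[(2 : ℤ)] γ = _
    rw [G4Form.sq_slash, G4_slash γ hγ]
    funext τ
    simp only [Pi.mul_apply, Pi.smul_apply, smul_eq_mul]
    linear_combination (etaQuot Finset.univ D4 r4 τ ^ 2) * G4Form.chi4_mul_self (γ 1 1)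
  · exact (mdiff_etaQuot G4Form.D4_pos).pow 2
  · intro c hc
    have hc' : IsCusp c 𝒮ℒ := hc.mono (Subgroup.map_le_range _ _)
    rw [OnePoint.isBoundedAt_iff_forall_SL2Z hc']
    intro γ _
    rw [G4Form.sq_slash]
    exact (G4Form.isBoundedAtImInfty_slash γ).mul (G4Form.isBoundedAtImInfty_slash γ)

end Fermat.Agent.BAD.Model.EtaInst

end
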