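/-
Project BAD, block ETAINST (sub-architect helper210), node M2: the formal series `G4s`, `G9s` chosen
in `Lib/EtaUnit` are the explicit eta products `G4z`, `G9z` (uniqueness of the expansion).
Proofs: helper224.
-/
import Fermat.Agent.BAD.Model.EtaInst.SerId
import Fermat.Agent.Lib.EtaFN.QExp
import Fermat.Agent.Lib.EtaUnit.G4.Main
import Fermat.Agent.Lib.EtaUnit.G9.Main

set_option autoImplicit false

noncomputable section

namespace Fermat.Agent.BAD.Model.EtaInst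

open ModularCurve Fermat.Agent.S24 Fermat.Agent.S18 Fermat.Agent.S18.Vert Fermat.Agent.S36.Mod
open Fermat.Agent.Lib.Hauptmodul (toL dilZ etaProdInv)
open scoped MatrixGroups


open Fermat.Agent.Lib

theorem GsEq_toL_injective : Function.Injective (toL Kbar) := by
  intro P Q h
  have h1 : PowerSeries.map (Int.castRingHom Kbar) P = PowerSeries.map (Int.castRingHom Kbar) Q :=
    HahnSeries.ofPowerSeries_injective h
  exact PowerSeries.map_injective _ (RingHom.injective_int _) h1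

theorem GsEq_G4_eq : EtaUnit.G4 = EtaFN.etaQuot Finset.univ EtaFN.D4 EtaFN.r4 := by
  funext τ
  simp only [EtaUnit.G4, EtaUnit.G4c, EtaFN.etaQuot, Fin.prod_univ_three, EtaFN.D4, EtaFN.r4,
    Matrix.cons_val_zero, Matrix.cons_val_one, Matrix.cons_val_two, Matrix.head_cons,
    Matrix.tail_cons]
  have e1 : ((1 : ℕ) : ℂ) * (τ : ℂ) = τ := by push_cast; ring
  have e2 : ((2 : ℕ) : ℂ) * (τ : ℂ) = 2 * τ := by push_cast; ring
  have e4 : ((4 : ℕ) : ℂ) * (τ : ℂ) = 4 * τ := by push_cast; ring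
  rw [e1, e2, e4, zpow_neg, zpow_neg]
  have z4 : ∀ x : ℂ, x ^ (4 : ℤ) = x ^ 4 := fun x => zpow_natCast x 4
  have z10 : ∀ x : ℂ, x ^ (10 : ℤ) = x ^ 10 := fun x => zpow_natCast x 10
  rw [z4, z4, z10, div_eq_mul_inv, mul_inv]
  ring

theorem GsEq_G9_eq : EtaUnit.G9 = EtaFN.etaQuot Finset.univ EtaFN.D9 EtaFN.r9 := by
  funext τ
  simp only [EtaUnit.G9, EtaUnit.Bc, EtaFN.etaQuot, Fin.prod_univ_two, EtaFN.D9, EtaFN.r9,
    Matrix.cons_val_zero, Matrix.cons_val_one]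
  have e1 : ((1 : ℕ) : ℂ) * (τ : ℂ) = τ := by push_cast; ring
  have e3 : ((3 : ℕ) : ℂ) * (τ : ℂ) = 3 * τ := by push_cast; ring
  rw [e1, e3, zpow_neg, zpow_one]
  have z3 : ∀ x : ℂ, x ^ (3 : ℤ) = x ^ 3 := fun x => zpow_natCast x 3
  rw [z3, div_eq_mul_inv]

/-- `G4s_eq`, with the series identity as a hypothesis. -/
theorem GsEq_G4s_eq_of (h : EtaFN.etaSer Finset.univ EtaFN.D4 EtaFN.r4 = toL Kbar G4z) :
    EtaUnit.G4s = G4z := by
  have h1 : HasTExp 1 EtaUnit.G4 (EtaUnit.toL EtaUnit.G4s) := EtaUnit.isW1_G4.exp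
  have h2 : HasTExp 1 (EtaFN.etaQuot Finset.univ EtaFN.D4 EtaFN.r4)
      (HahnSeries.single 0 1 * EtaFN.etaSer Finset.univ EtaFN.D4 EtaFN.r4) :=
    EtaFN.hasTExp_etaQuot (by
      intro i _
      fin_cases i <;> simp [EtaFN.D4]) 0 (by
      simp [Fin.sum_univ_three, EtaFN.D4, EtaFN.r4])
  rw [← GsEq_G4_eq] at h2
  have h3 := h1.unique h2
  have h4 : (HahnSeries.single 0 1 : LaurentSeries Kbar) = 1 := rfl
  rw [h, h4, one_mul] at h3
  exact GsEq_toL_injective h3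

/-- `G9s_eq`, with the series identity as a hypothesis. -/
theorem GsEq_G9s_eq_of (h : EtaFN.etaSer Finset.univ EtaFN.D9 EtaFN.r9 = toL Kbar G9z) :
    EtaUnit.G9s = G9z := by
  have h1 : HasTExp 1 EtaUnit.G9 (EtaUnit.toL EtaUnit.G9s) := EtaUnit.isW1_G9.exp
  have h2 : HasTExp 1 (EtaFN.etaQuot Finset.univ EtaFN.D9 EtaFN.r9)
      (HahnSeries.single 0 1 * EtaFN.etaSer Finset.univ EtaFN.D9 EtaFN.r9) :=
    EtaFN.hasTExp_etaQuot (by
      intro i _
      fin_cases i <;> simp [EtaFN.D9]) 0 (by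
      simp [Fin.sum_univ_two, EtaFN.D9, EtaFN.r9])
  rw [← GsEq_G9_eq] at h2
  have h3 := h1.unique h2
  have h4 : (HahnSeries.single 0 1 : LaurentSeries Kbar) = 1 := rfl
  rw [h, h4, one_mul] at h3
  exact GsEq_toL_injective h3

/-- M2 `GsEq.lean`.  (uniqueness of the expansion of `G₄`.) -/
theorem G4s_eq : EtaUnit.G4s = G4z := GsEq_G4s_eq_of etaSer_D4

/-- M2 `GsEq.lean` -/
theorem G9s_eq : EtaUnit.G9s = G9z := GsEq_G9s_eq_of etaSer_D9

end Fermat.Agent.BAD.Model.EtaInst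

end
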