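/-
Project BAD, block ETAINST (sub-architect helper210), node M7 (proof helper44):
the Hauptmodul `t₄` of level `N0` over `K`.
-/
import Fermat.Agent.BAD.Model.EtaInst.SerId
import Fermat.Agent.BAD.Model.EtaInst.IntOver
import Fermat.Agent.S36.Desc.Model
import Fermat.Agent.Lib.EtaFN.Final
import Fermat.Agent.Lib.Hauptmodul.Basic

set_option autoImplicit false

noncomputable section

namespace Fermat.Agent.BAD.Model.EtaInst

open ModularCurve Fermat.Agent.S24 Fermat.Agent.S18 Fermat.Agent.S18.Vert Fermat.Agent.S36.Mod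
  Fermat.Agent.S18.Descent
open Fermat.Agent.Lib.Hauptmodul (toL dilZ etaProdInv)
open scoped MatrixGroups

variable {K K' : Type*} [Field K] [Field K'] [Algebra ℚ K] [Algebra ℚ K'] [Algebra K Kbar]
  [Algebra K' Kbar] (S : Setup K K')

section M

open Fermat.Agent.Lib

theorem Haupt.constantCoeff_T4z : PowerSeries.constantCoeff T4z = 1 := by
  rw [T4z, map_mul, map_pow, map_pow, Hauptmodul.constantCoeff_dilZ, constantCoeff_etaProd,
    Hauptmodul.constantCoeff_etaProdInv, one_pow, one_mul]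

theorem Haupt.baseChangeMap_jj (N : ℕ) :
    baseChangeMap (modularFunctionFieldFull N) (algebraMap K Kbar) (jj K N) = jF N := by
  apply Subtype.ext
  change coeffMap (algebraMap K Kbar) (coeffEmb K (qExpand ℚ 1 jq)) = coeffEmb Kbar (qExpand ℚ 1 jq)
  exact coeffMap_coeffEmb' _ _

/-- M7 `Haupt.lean`.  (`EtaFN.exists_t4`, descent, `etaSer_Dt4`; `m = 256`.) -/
theorem exists_hauptData (h4 : 4 ∣ S.N0) (hq2 : S.q ≠ 2)
    (hder : PowerSeries.X * PowerSeries.derivative ℤ T4z - T4z = - (G4z ^ 2 * T4z)) :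
    ∃ t : S.F0, HauptData S G4z T4z t := by
  obtain ⟨x, hx, -, hint, hint'⟩ := EtaFN.exists_t4 (N := S.N0) h4
  rw [etaSer_Dt4] at hx
  have hy : coeffMap (algebraMap K Kbar) (HahnSeries.single (-1 : ℤ) 1 * toL K T4z) =
      (x : LaurentSeries Kbar) := by
    rw [hx, map_mul, coeffMap_single, map_one, Hauptmodul.coeffMap_toL]
  have hmem : HahnSeries.single (-1 : ℤ) 1 * toL K T4z ∈ FK K S.N0 :=
    S36.Desc.mem_laurentBaseChange_of_coeffMap_mem (L' := Kbar) (by rw [hy]; exact x.2)
  have hbc : baseChangeMap (modularFunctionFieldFull S.N0) (algebraMap K Kbar)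
      (⟨HahnSeries.single (-1 : ℤ) 1 * toL K T4z, hmem⟩ : S.F0) = x := Subtype.ext hy
  refine ⟨⟨HahnSeries.single (-1 : ℤ) 1 * toL K T4z, hmem⟩,
    ⟨Haupt.constantCoeff_T4z, rfl, hder, ?_, 256, ?_, ?_⟩⟩
  · apply IntOver.of_map (baseChangeMap (modularFunctionFieldFull S.N0) (algebraMap K Kbar))
      (baseChangeMap_injective _)
    rw [hbc, Haupt.baseChangeMap_jj]
    exact hint
  · have h2 : Nat.Coprime 2 S.q := (Nat.coprime_primes Nat.prime_two S.hq).2 (Ne.symm hq2)
    exact Nat.Coprime.pow_left 8 h2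
  · apply IntOver.of_map (baseChangeMap (modularFunctionFieldFull S.N0) (algebraMap K Kbar))
      (baseChangeMap_injective _)
    rw [map_mul, map_inv₀, map_natCast, hbc, Haupt.baseChangeMap_jj]
    exact_mod_cast hint'

end M

end Fermat.Agent.BAD.Model.EtaInst

end
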