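/-
Project BAD, block ETAINST, node J6 (core): Jacobi's four squares identity
`G4z ^ 2 = 1 + 8 δ₄` from the Sturm bound on `Γ₀(4)`, with the three inputs
(J3 existence of the form, J4 its expansion, J5 the first two coefficients) as hypotheses.
-/
import Fermat.Agent.BAD.Model.EtaInst.Defs
import Fermat.Agent.S16.EisP
import Fermat.Agent.Lib.Gamma0Cosets.Card
import Fermat.Prelude.Thm_ModularForm_sturm_bound_Gamma0

set_option autoImplicit false

noncomputable section

namespace Fermat.Agent.BAD.Model.EtaInst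

open CongruenceSubgroup UpperHalfPlane

theorem JacobiCore_index_four : (Gamma0 4).index = 6 := by
  rw [Fermat.Agent.Lib.Gamma0Cosets.index_Gamma0]
  decide +kernel

theorem JacobiCore_qExpansion_eis :
    qExpansion 1 ((8 : ℂ) • Fermat.Agent.S16.EisP.eisN 4 : ModularForm (Gamma0 4) 2) =
      (1 + 8 * Fermat.Agent.S16.deltaZ 4 : PowerSeries ℤ).map (Int.castRingHom ℂ) := by
  rw [FunLike.coe_smul, ModularForm.qExpansion_smul one_pos
    (Fermat.Agent.S16.EisP.one_mem_strictPeriods 4), Fermat.Agent.S16.EisP.qExpansion_eisN,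
    Fermat.Agent.S16.EisQ, smul_add, map_add, map_mul, map_one]
  congr 1
  · rw [PowerSeries.smul_eq_C_mul, ← map_mul]
    norm_num
  · rw [PowerSeries.smul_eq_C_mul]
    congr 1
    rw [map_ofNat, map_ofNat]

theorem JacobiCore_main (f : ModularForm (Gamma0 4) 2)
    (hf : qExpansion 1 f = (G4z ^ 2).map (Int.castRingHom ℂ))
    (hc : PowerSeries.coeff 0 G4z = 1 ∧ PowerSeries.coeff 1 G4z = 4) :
    G4z ^ 2 = 1 + 8 * Fermat.Agent.S16.deltaZ 4 := by
  have hper := Fermat.Agent.S16.EisP.one_mem_strictPeriods 4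
  have hg := JacobiCore_qExpansion_eis
  set g : ModularForm (Gamma0 4) 2 := (8 : ℂ) • Fermat.Agent.S16.EisP.eisN 4 with hgdef
  have hq : qExpansion 1 ⇑(f - g) =
      (G4z ^ 2 - (1 + 8 * Fermat.Agent.S16.deltaZ 4) : PowerSeries ℤ).map (Int.castRingHom ℂ) := by
    rw [FunLike.coe_sub, ModularForm.qExpansion_sub one_pos hper f g, hf, hg, map_sub]
  have h0 : f - g = 0 := by
    apply ModularForm.sturm_bound_Gamma0 4
    intro n hn
    rw [JacobiCore_index_four] at hn
    have hn1 : n ≤ 1 := by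
      have e : ((2 : ℤ) * ((6 : ℕ) : ℤ)).toNat / 12 = 1 := by decide
      rwa [e] at hn
    rw [hq, PowerSeries.coeff_map]
    have hz : PowerSeries.coeff n
        (G4z ^ 2 - (1 + 8 * Fermat.Agent.S16.deltaZ 4) : PowerSeries ℤ) = 0 := by
      have h8 : (8 : PowerSeries ℤ) = PowerSeries.C 8 := by
        rw [map_ofNat]
      rw [map_sub, map_add, h8, PowerSeries.coeff_C_mul, Fermat.Agent.S16.deltaZ,
        PowerSeries.coeff_mk, sq, PowerSeries.coeff_mul]
      interval_cases n
      · simp [hc.1, Fermat.Agent.S16.sigP]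
      · rw [Finset.Nat.antidiagonal_succ]
        have e : Fermat.Agent.S16.sigP 4 1 = 1 := by decide
        rw [e]
        simp [hc.1, hc.2]
    rw [hz, map_zero]
  have h1 : (G4z ^ 2 - (1 + 8 * Fermat.Agent.S16.deltaZ 4) : PowerSeries ℤ).map
      (Int.castRingHom ℂ) = 0 := by
    rw [← hq, h0]
    exact (ModularForm.qExpansion_eq_zero_iff one_pos hper _).mpr rfl
  have h2 := PowerSeries.map_injective (Int.castRingHom ℂ) (Int.cast_injective (α := ℂ))
    (h1.trans (map_zero _).symm)
  exact sub_eq_zero.mp h2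

end Fermat.Agent.BAD.Model.EtaInst

end
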