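/-
Project BAD, block ETAINST, node J6: Jacobi's four squares identity `G4z ^ 2 = 1 + 8 δ₄`.
-/
import Fermat.Agent.BAD.Model.EtaInst.JacobiCore
import Fermat.Agent.BAD.Model.EtaInst.G4Form
import Fermat.Agent.BAD.Model.EtaInst.G4Coeff
import Fermat.Agent.BAD.Model.EtaInst.G4Exp

set_option autoImplicit false

namespace Fermat.Agent.BAD.Model.EtaInst

/-- J6 `Jacobi.lean`.  Jacobi's four squares theorem (Sturm bound `2 * 6 / 12 = 1`). -/
theorem G4z_sq : G4z ^ 2 = 1 + 8 * Fermat.Agent.S16.deltaZ 4 := by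
  obtain ⟨f, hf⟩ := exists_G4sq
  exact JacobiCore_main f (qExpansion_G4sq f hf) coeff_G4z

end Fermat.Agent.BAD.Model.EtaInst
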