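/-
Project BAD, block ETAINST (sub-architect helper210), node J1 (proof: helper129):
the logarithmic derivative of the Euler product, `X P' = - (∑ σ₁(k) X^k) P`.
-/
import Fermat.Agent.BAD.Model.EtaInst.Defs
import Fermat.Agent.S16.Defs

set_option autoImplicit false

noncomputable section

namespace Fermat.Agent.BAD.Model.EtaInst

open ModularCurve
open scoped PowerSeries.WithPiTopology
open Filter Topology

/-- `m X^m / (1 - X^m)` -/
def LogDeriv.L (m : ℕ) : PowerSeries ℤ :=
  PowerSeries.mk fun k => if m ∣ k ∧ k ≠ 0 then (m : ℤ) else 0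

theorem LogDeriv.one_sub_mul_L (m : ℕ) (hm : 0 < m) :
    (1 - PowerSeries.X ^ m) * LogDeriv.L m = (m : PowerSeries ℤ) * PowerSeries.X ^ m := by
  ext k
  have e : ((m : PowerSeries ℤ)) = PowerSeries.C (m : ℤ) := by simp
  rw [sub_mul, one_mul, map_sub, PowerSeries.coeff_X_pow_mul', e, PowerSeries.coeff_C_mul,
    PowerSeries.coeff_X_pow, LogDeriv.L, PowerSeries.coeff_mk, PowerSeries.coeff_mk]
  rcases lt_trichotomy k m with h | h | h
  · have h1 : ¬ (m ∣ k ∧ k ≠ 0) := fun ⟨h2, h3⟩ => h3 (Nat.eq_zero_of_dvd_of_lt h2 h)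
    rw [if_neg h1, if_neg (by omega), if_neg (by omega)]
    simp
  · subst h
    simp [hm.ne']
  · have h1 : (m ∣ k - m ∧ k - m ≠ 0) ↔ (m ∣ k ∧ k ≠ 0) := by
      rw [Nat.dvd_sub_iff_left h.le (dvd_refl m)]
      constructor
      · rintro ⟨h2, -⟩
        exact ⟨h2, by omega⟩
      · rintro ⟨h2, -⟩
        exact ⟨h2, by omega⟩
    rw [if_pos h.le, if_neg (by omega : ¬ k = m)]
    simp only [h1]
    simp

/-- the partial products -/
def LogDeriv.P (M : ℕ) : PowerSeries ℤ := ∏ n ∈ Finset.range M, (1 - PowerSeries.X ^ (n + 1))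

/-- the partial sums of the logarithmic derivative -/
def LogDeriv.S (M : ℕ) : PowerSeries ℤ := ∑ n ∈ Finset.range M, LogDeriv.L (n + 1)

theorem LogDeriv.X_mul_derivative_P (M : ℕ) :
    PowerSeries.X * PowerSeries.derivative ℤ (LogDeriv.P M) = - (LogDeriv.S M * LogDeriv.P M) := by
  induction M with
  | zero => simp [LogDeriv.P, LogDeriv.S]
  | succ M ih =>
    have hP : LogDeriv.P (M + 1) = LogDeriv.P M * (1 - PowerSeries.X ^ (M + 1)) :=
      Finset.prod_range_succ _ _
    have hS : LogDeriv.S (M + 1) = LogDeriv.S M + LogDeriv.L (M + 1) :=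
      Finset.sum_range_succ _ _
    have hL := LogDeriv.one_sub_mul_L (M + 1) (Nat.succ_pos M)
    have hd : PowerSeries.derivative ℤ (1 - PowerSeries.X ^ (M + 1) : PowerSeries ℤ) =
        - (((M + 1 : ℕ) : PowerSeries ℤ) * PowerSeries.X ^ M) := by
      rw [map_sub, PowerSeries.derivative_one, PowerSeries.derivative_pow,
        PowerSeries.derivative_X]
      simp
    rw [hP, hS, Derivation.leibniz, hd, smul_eq_mul, smul_eq_mul]
    have e1 : PowerSeries.X * (LogDeriv.P M * -(((M + 1 : ℕ) : PowerSeries ℤ) * PowerSeries.X ^ M) +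
        (1 - PowerSeries.X ^ (M + 1)) * PowerSeries.derivative ℤ (LogDeriv.P M)) =
        - (LogDeriv.P M * (((M + 1 : ℕ) : PowerSeries ℤ) * PowerSeries.X ^ (M + 1))) +
        (1 - PowerSeries.X ^ (M + 1)) *
          (PowerSeries.X * PowerSeries.derivative ℤ (LogDeriv.P M)) := by
      rw [pow_succ (PowerSeries.X : PowerSeries ℤ) M]
      ring
    rw [e1, ih, ← hL]
    ring

theorem LogDeriv.coeff_S (M k : ℕ) (h : k ≤ M) :
    PowerSeries.coeff k (LogDeriv.S M) = (ArithmeticFunction.sigma 1 k : ℤ) := by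
  rw [LogDeriv.S, map_sum, ArithmeticFunction.sigma_one_apply]
  simp only [LogDeriv.L, PowerSeries.coeff_mk]
  rcases Nat.eq_zero_or_pos k with rfl | hk
  · simp
  · rw [Nat.cast_sum]
    have h1 : ∑ n ∈ Finset.range M, (if n + 1 ∣ k ∧ k ≠ 0 then ((n + 1 : ℕ) : ℤ) else 0) =
        ∑ d ∈ Finset.Ico 1 (M + 1), (if d ∣ k then (d : ℤ) else 0) := by
      rw [Finset.sum_Ico_eq_sum_range]
      refine Finset.sum_congr rfl fun n _ => ?_
      simp only [hk.ne', ne_eq, not_false_eq_true, and_true, add_comm 1 n]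
    rw [h1, ← Finset.sum_filter]
    refine Finset.sum_congr ?_ fun _ _ => rfl
    ext d
    simp only [Finset.mem_filter, Finset.mem_Ico, Nat.mem_divisors]
    constructor
    · rintro ⟨-, h2⟩
      exact ⟨h2, hk.ne'⟩
    · rintro ⟨h2, -⟩
      have := Nat.le_of_dvd hk h2
      have := Nat.pos_of_dvd_of_pos h2 hk
      exact ⟨⟨by omega, by omega⟩, h2⟩

theorem LogDeriv.tendsto_P : Tendsto LogDeriv.P atTop (𝓝 etaProd) :=
  (PowerSeries.WithPiTopology.multipliable_one_sub_X_pow ℤ).hasProd.tendsto_prod_nat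

theorem LogDeriv.tendsto_S : Tendsto LogDeriv.S atTop (𝓝 (Fermat.Agent.S16.sigZ 1)) := by
  rw [PowerSeries.WithPiTopology.tendsto_iff_coeff_tendsto]
  intro k
  refine tendsto_atTop_of_eventually_const (i₀ := k) fun M hM => ?_
  rw [LogDeriv.coeff_S M k hM, Fermat.Agent.S16.sigZ, PowerSeries.coeff_mk]

theorem LogDeriv.coeff_X_mul_derivative (f : PowerSeries ℤ) (k : ℕ) :
    PowerSeries.coeff k (PowerSeries.X * PowerSeries.derivative ℤ f) =
      (k : ℤ) * PowerSeries.coeff k f := by
  cases k with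
  | zero => simp
  | succ k =>
    rw [PowerSeries.coeff_succ_X_mul, PowerSeries.coeff_derivative]
    push_cast
    ring

theorem LogDeriv.tendsto_X_mul_derivative :
    Tendsto (fun M => PowerSeries.X * PowerSeries.derivative ℤ (LogDeriv.P M)) atTop
      (𝓝 (PowerSeries.X * PowerSeries.derivative ℤ etaProd)) := by
  rw [PowerSeries.WithPiTopology.tendsto_iff_coeff_tendsto]
  intro k
  simp only [LogDeriv.coeff_X_mul_derivative]
  exact (((PowerSeries.WithPiTopology.continuous_coeff ℤ k).tendsto _).comp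
    LogDeriv.tendsto_P).const_mul _

/-- J1 `LogDeriv.lean`.  The logarithmic derivative of the Euler product. -/
theorem X_mul_derivative_etaProd :
    PowerSeries.X * PowerSeries.derivative ℤ etaProd = - (Fermat.Agent.S16.sigZ 1 * etaProd) := by
  refine tendsto_nhds_unique LogDeriv.tendsto_X_mul_derivative ?_
  simp only [LogDeriv.X_mul_derivative_P]
  exact (LogDeriv.tendsto_S.mul LogDeriv.tendsto_P).neg

end Fermat.Agent.BAD.Model.EtaInst

end
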