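/-
Project BAD, block ETAINST (sub-architect helper210).  TASK ETAINST-J2 (proofs: helper185):
the logarithmic derivative of `T4z = etaProd ^ 8 * (dilZ 4 etaProdInv) ^ 8`.

Uses the node J1 (`X_mul_derivative_etaProd`) of the skeleton; everything else is proved here
(`LogDerivT_main` takes J1 as a hypothesis).
-/
import Fermat.Agent.BAD.Model.EtaInst.LogDeriv
import Fermat.Agent.S16.EisP
import Fermat.Agent.Lib.Hauptmodul.Basic

set_option autoImplicit false

noncomputable section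

namespace Fermat.Agent.BAD.Model.EtaInst

open ModularCurve
open Fermat.Agent.Lib.Hauptmodul (toL dilZ etaProdInv)

/-- `θ = X d/dX` on `ℤ[[X]]`. -/
def LogDerivT_th (f : PowerSeries ℤ) : PowerSeries ℤ := PowerSeries.X * PowerSeries.derivative ℤ f

theorem LogDerivT_th_mul (f g : PowerSeries ℤ) :
    LogDerivT_th (f * g) = LogDerivT_th f * g + f * LogDerivT_th g := by
  unfold LogDerivT_th
  rw [Derivation.leibniz, smul_eq_mul, smul_eq_mul]
  ring

theorem LogDerivT_th_pow_succ (f : PowerSeries ℤ) (n : ℕ) :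
    LogDerivT_th (f ^ (n + 1)) = ((n + 1 : ℕ) : PowerSeries ℤ) * f ^ n * LogDerivT_th f := by
  unfold LogDerivT_th
  rw [Derivation.leibniz_pow, Nat.add_sub_cancel, smul_eq_mul, nsmul_eq_mul]
  ring

theorem LogDerivT_coeff_th (f : PowerSeries ℤ) (m : ℕ) :
    PowerSeries.coeff m (LogDerivT_th f) = (m : ℤ) * PowerSeries.coeff m f := by
  unfold LogDerivT_th
  cases m with
  | zero => rw [PowerSeries.coeff_zero_X_mul]; simp
  | succ n =>
    rw [PowerSeries.coeff_succ_X_mul, PowerSeries.coeff_derivative]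
    push_cast
    ring

theorem LogDerivT_coeff_dilZ (d : ℕ) (f : PowerSeries ℤ) (m : ℕ) :
    PowerSeries.coeff m (dilZ d f) = if d ∣ m then PowerSeries.coeff (m / d) f else 0 := by
  rw [dilZ, PowerSeries.coeff_mk]

theorem LogDerivT_th_dilZ (d : ℕ) (f : PowerSeries ℤ) :
    LogDerivT_th (dilZ d f) = (d : PowerSeries ℤ) * dilZ d (LogDerivT_th f) := by
  ext m
  have h1 : ((d : ℕ) : PowerSeries ℤ) = PowerSeries.C ((d : ℕ) : ℤ) := by
    rw [map_natCast]
  rw [LogDerivT_coeff_th, h1, PowerSeries.coeff_C_mul, LogDerivT_coeff_dilZ, LogDerivT_coeff_dilZ]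
  split_ifs with h
  · obtain ⟨e, rfl⟩ := h
    rcases Nat.eq_zero_or_pos d with rfl | hd
    · simp
    · rw [LogDerivT_coeff_th, Nat.mul_div_cancel_left _ hd]
      push_cast
      ring
  · rw [mul_zero, mul_zero]

theorem LogDerivT_deltaZ_four :
    Fermat.Agent.S16.deltaZ 4 = Fermat.Agent.S16.sigZ 1 - 4 * dilZ 4 (Fermat.Agent.S16.sigZ 1) := by
  ext k
  have h4 : (4 : PowerSeries ℤ) = PowerSeries.C (4 : ℤ) := by
    rw [map_ofNat]
  rw [map_sub, h4, PowerSeries.coeff_C_mul, LogDerivT_coeff_dilZ, Fermat.Agent.S16.deltaZ,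
    Fermat.Agent.S16.sigZ, PowerSeries.coeff_mk, PowerSeries.coeff_mk, PowerSeries.coeff_mk]
  rcases Nat.eq_zero_or_pos k with rfl | hk
  · simp [Fermat.Agent.S16.sigP]
  · rw [Fermat.Agent.S16.EisP.sigP_eq_sigmaN, ← Fermat.Agent.S16.EisP.sigma_sub_eq_sigmaN 4 hk.ne']
    rfl

/-- `θ (1 / P) = σ / P`. -/
theorem LogDerivT_th_etaProdInv
    (h : LogDerivT_th etaProd = - (Fermat.Agent.S16.sigZ 1 * etaProd)) :
    LogDerivT_th etaProdInv = Fermat.Agent.S16.sigZ 1 * etaProdInv := by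
  have h1 : etaProd * etaProdInv = 1 := Fermat.Agent.Lib.Hauptmodul.etaProd_mul_inv
  have h2 : LogDerivT_th (etaProd * etaProdInv) = 0 := by
    rw [h1]
    unfold LogDerivT_th
    rw [Derivation.map_one_eq_zero, mul_zero]
  rw [LogDerivT_th_mul, h] at h2
  calc LogDerivT_th etaProdInv
      = (etaProd * etaProdInv) * LogDerivT_th etaProdInv := by rw [h1, one_mul]
    _ = etaProdInv * (-(Fermat.Agent.S16.sigZ 1 * etaProd) * etaProdInv
          + etaProd * LogDerivT_th etaProdInv)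
        + Fermat.Agent.S16.sigZ 1 * etaProdInv * (etaProd * etaProdInv) := by ring
    _ = Fermat.Agent.S16.sigZ 1 * etaProdInv := by rw [h2, h1, mul_zero, zero_add, mul_one]

theorem LogDerivT_main
    (h : PowerSeries.X * PowerSeries.derivative ℤ etaProd =
      - (Fermat.Agent.S16.sigZ 1 * etaProd)) :
    PowerSeries.X * PowerSeries.derivative ℤ T4z = - (8 * Fermat.Agent.S16.deltaZ 4 * T4z) := by
  have h1 : LogDerivT_th etaProd = - (Fermat.Agent.S16.sigZ 1 * etaProd) := h
  have h2 := LogDerivT_th_etaProdInv h1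
  show LogDerivT_th T4z = _
  rw [T4z, LogDerivT_th_mul, LogDerivT_th_pow_succ etaProd 7,
    LogDerivT_th_pow_succ (dilZ 4 etaProdInv) 7, LogDerivT_th_dilZ, h1, h2,
    Fermat.Agent.Lib.Hauptmodul.dilZ_mul, LogDerivT_deltaZ_four]
  push_cast
  ring

/-- J2 `LogDerivT.lean` -/
theorem X_mul_derivative_T4z :
    PowerSeries.X * PowerSeries.derivative ℤ T4z = - (8 * Fermat.Agent.S16.deltaZ 4 * T4z) :=
  LogDerivT_main X_mul_derivative_etaProd

end Fermat.Agent.BAD.Model.EtaInst

end
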