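/-
Project BAD, block ETAINST (architect helper210), node M5 (helper161): descent of the modular unit
`G(τ) / G(q τ)` from `ℚ̄` to `K`.
-/
import Fermat.Agent.BAD.Model.EtaInst.Defs
import Fermat.Agent.BAD.Model.EtaInst.AL
import Fermat.Agent.S36.Desc.Model
import Fermat.Agent.Lib.EtaUnit.Main
import Fermat.Agent.Lib.Hauptmodul.Basic
import Fermat.Agent.Lib.MulHecke.Basic

set_option autoImplicit false

noncomputable section

namespace Fermat.Agent.BAD.Model.EtaInst

open ModularCurve Fermat.Agent.S24 Fermat.Agent.S18 Fermat.Agent.S18.Vert Fermat.Agent.S36.Mod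
  Fermat.Agent.S36.BP Fermat.Agent.S18.Descent
open Fermat.Agent.Lib.Hauptmodul (toL dilZ etaProdInv)
open Fermat.Agent.Lib.EtaUnit (IsW1 unitF xser)
open scoped MatrixGroups

/-- integrality over `ℤ[a]` descends along an injective ring homomorphism -/
theorem UnitDesc.intOver_of_map {B B' : Type*} [CommRing B] [CommRing B'] (φ : B →+* B')
    (hφ : Function.Injective φ) {a y : B} (h : IntOver (φ a) (φ y)) : IntOver a y := by
  classical
  rcases subsingleton_or_nontrivial B' with hs | hn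
  · -- then `B` is trivial as well
    have : Subsingleton B := hφ.subsingleton
    exact ⟨1, Polynomial.monic_one, Subsingleton.elim _ _⟩
  obtain ⟨P, hP, hPy⟩ := h
  -- the restriction of `φ`
  let φz : B →ₐ[ℤ] B' := φ.toIntAlgHom
  have hmap : (Algebra.adjoin ℤ {a}).map φz = Algebra.adjoin ℤ {φ a} := by
    rw [AlgHom.map_adjoin, Set.image_singleton]
    rfl
  let ψ : Algebra.adjoin ℤ {a} →+* Algebra.adjoin ℤ {φ a} :=
    { toFun := fun c => ⟨φ c, by rw [← hmap]; exact ⟨c, c.2, rfl⟩⟩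
      map_one' := Subtype.ext (map_one φ)
      map_mul' := fun c d => Subtype.ext (map_mul φ _ _)
      map_zero' := Subtype.ext (map_zero φ)
      map_add' := fun c d => Subtype.ext (map_add φ _ _) }
  have hψ : Function.Surjective ψ := by
    rintro ⟨c, hc⟩
    rw [← hmap] at hc
    obtain ⟨d, hd, rfl⟩ := hc
    exact ⟨⟨d, hd⟩, rfl⟩
  have hlift : P ∈ Polynomial.lifts ψ := by
    rw [Polynomial.lifts_iff_coeff_lifts]
    intro n
    exact hψ _
  obtain ⟨Q, hQP, -, hQ⟩ := Polynomial.lifts_and_degree_eq_and_monic hlift hP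
  refine ⟨Q, hQ, hφ ?_⟩
  rw [map_zero, Polynomial.hom_eval₂, ← hPy, ← hQP, Polynomial.eval₂_map]
  rfl

variable {K K' : Type*} [Field K] [Field K'] [Algebra ℚ K] [Algebra ℚ K'] [Algebra K Kbar]
  [Algebra K' Kbar] (S : Setup K K')

/-- the series `G(t) / G(t^m)` over `ℚ̄` as a product -/
theorem UnitDesc.xser_eq {Gs : PowerSeries ℤ} (hG : PowerSeries.constantCoeff Gs = 1) (m : ℕ)
    [NeZero m] : xser Gs m = toL Kbar Gs * qExpand Kbar m (toL Kbar (invZ Gs)) := by
  have h1 := Lib.Hauptmodul.toL_mul_toL_invOfUnit Kbar Gs hG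
  have h2 := congrArg (qExpand Kbar m) h1
  rw [map_mul, map_one] at h2
  change toL Kbar Gs / qExpand Kbar m (toL Kbar Gs) = _
  rw [div_eq_mul_inv, invZ, eq_inv_of_mul_eq_one_right h2]

/-- M5.  Descent of the unit from `ℚ̄` to `K`. -/
theorem exists_unitData_of_isW1 {a : ℕ} {χ : ℤ → ℤ} {G : UpperHalfPlane → ℂ} {Gs : PowerSeries ℤ}
    (h : IsW1 a χ G Gs) (ha : a ∣ S.N0) (hm : Nat.Coprime S.q a) (hN : a * S.q ∣ S.N0 * S.q)
    (hint : IntOver (jF (S.N0 * S.q)) (unitF h S.q (S.N0 * S.q) hm hN))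
    (hint' : IntOver (jF (S.N0 * S.q))
      (((S.q : ℕ) : FN (S.N0 * S.q)) * (unitF h S.q (S.N0 * S.q) hm hN)⁻¹)) :
    ∃ x : S.F1, UnitData S Gs (χ S.q) x := by
  have hser : coeffMap (algebraMap K Kbar) (toL K Gs * qExpand K S.q (toL K (invZ Gs))) =
      xser Gs S.q := by
    rw [UnitDesc.xser_eq h.const, map_mul, Lib.MulHecke.coeffMap_qExpand,
      Lib.Hauptmodul.coeffMap_toL, Lib.Hauptmodul.coeffMap_toL]
  have hmem : toL K Gs * qExpand K S.q (toL K (invZ Gs)) ∈ S.F1 := by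
    apply S36.Desc.mem_laurentBaseChange_of_coeffMap_mem (L := K) (L' := Kbar)
    rw [hser]
    exact Lib.EtaUnit.xser_mem h S.q (S.N0 * S.q) hm hN
  let x : S.F1 := ⟨_, hmem⟩
  have hx : coeffMap (algebraMap K Kbar) (x : LaurentSeries K) = xser Gs S.q := hser
  have hxb : toBarK K (S.N0 * S.q) x = unitF h S.q (S.N0 * S.q) hm hN := Subtype.ext hx
  have hjb : toBarK K (S.N0 * S.q) (jj K (S.N0 * S.q)) = jF (S.N0 * S.q) :=
    EmbK.toBar_JK _ _ _ _
  have hinj : Function.Injective (toBarK K (S.N0 * S.q)) := (toBarK K (S.N0 * S.q)).injective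
  refine ⟨x, h.const, ?_, rfl, ?_, ?_, ?_⟩
  · have hcop : IsCoprime (S.q : ℤ) (a : ℤ) := Nat.isCoprime_iff_coprime.2 hm
    exact mul_self_eq_one_iff.1 (h.chi_sq _ hcop)
  · rw [w1_mul_self S h ha x hx]
    push_cast
    rfl
  · apply UnitDesc.intOver_of_map _ hinj
    rw [hjb, hxb]
    exact hint
  · apply UnitDesc.intOver_of_map _ hinj
    rw [hjb, map_mul, map_inv₀, hxb, map_natCast]
    exact hint'

end Fermat.Agent.BAD.Model.EtaInst

end
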