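/-
Project BAD, block ETAINST, node M6 (task 2289, helper288): integrality over `ℤ[j]` of the weight one
modular units `G(t)/G(t^q)` at the levels `4` and `9`.
-/
import Fermat.Agent.BAD.Model.EtaInst.SerId
import Fermat.Agent.BAD.Model.EtaInst.GsEq
import Fermat.Agent.Lib.EtaFN.Final
import Fermat.Agent.Lib.EtaUnit.Main
import Fermat.Agent.Lib.EtaUnit.G4.Main
import Fermat.Agent.Lib.EtaUnit.G9.Main

set_option autoImplicit false

noncomputable section

namespace Fermat.Agent.BAD.Model.EtaInst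

open ModularCurve Fermat.Agent.S24 Fermat.Agent.S18 Fermat.Agent.S18.Vert Fermat.Agent.S36.Mod
  Fermat.Agent.S36.BP Fermat.Agent.S18.Descent
open Fermat.Agent.Lib.Hauptmodul (toL dilZ etaProdInv)
open scoped MatrixGroups

open Fermat.Agent.Lib.EtaUnit (IsW1 unitF)
open Fermat.Agent.Lib

/-- identification of an element of `FN N` with `unitF` by its expansion. -/
theorem unitInt_eq_unitF {a : ℕ} {χ : ℤ → ℤ} {G : UpperHalfPlane → ℂ} {Gs : PowerSeries ℤ}
    (h : IsW1 a χ G Gs) (N q : ℕ) [NeZero N] [NeZero q] (hm : Nat.Coprime q a) (hN : a * q ∣ N)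
    (x : FN N)
    (hx : (x : LaurentSeries Kbar) = toL Kbar Gs * qExpand Kbar q (toL Kbar (invZ Gs))) :
    x = unitF h q N hm hN := by
  apply Subtype.ext
  rw [hx]
  change _ = toL Kbar Gs / qExpand Kbar q (toL Kbar Gs)
  have h1 : qExpand Kbar q (toL Kbar Gs) * qExpand Kbar q (toL Kbar (invZ Gs)) = 1 := by
    have h2 : Gs * invZ Gs = 1 := PowerSeries.mul_invOfUnit _ _ (by rw [h.const]; rfl)
    rw [← map_mul, ← map_mul, h2, map_one, map_one]
  rw [div_eq_mul_inv, eq_inv_of_mul_eq_one_right h1]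

/-- M6 `UnitInt.lean`.  (`EtaFN.exists_unit4` with `E = 1`, `E' = q`; `G4s_eq`, `etaSer_ratio`.) -/
theorem intOver_unitF4 (N q : ℕ) [NeZero N] [NeZero q] (hm : Nat.Coprime q 4) (hN : 4 * q ∣ N) :
    IntOver (jF N) (unitF EtaUnit.isW1_G4 q N hm hN) ∧
      IntOver (jF N) (((q : ℕ) : FN N) * (unitF EtaUnit.isW1_G4 q N hm hN)⁻¹) := by
  have hodd : Odd q := by
    rw [← Nat.coprime_two_right]
    exact Nat.Coprime.coprime_dvd_right (by norm_num) hm
  obtain ⟨x, hx, -, hint⟩ := EtaFN.exists_unit4 (N := N) (E := 1) (E' := q) one_pos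
    (Nat.pos_of_ne_zero (NeZero.ne q)) odd_one hodd
    ((Nat.mul_dvd_mul_left 4 (one_dvd q)).trans hN) hN
  obtain ⟨h1, h2⟩ := hint (one_dvd q)
  have hc : PowerSeries.constantCoeff G4z = 1 := by
    rw [← G4s_eq]; exact EtaUnit.isW1_G4.const
  have hxe : x = unitF EtaUnit.isW1_G4 q N hm hN := by
    refine unitInt_eq_unitF _ N q hm hN x ?_
    rw [hx, G4s_eq]
    exact etaSer_ratio EtaFN.D4 EtaFN.r4 (by intro i; fin_cases i <;> simp [EtaFN.D4]) G4z hc
      etaSer_D4 q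
  rw [Nat.div_one] at h2
  rw [← hxe]
  exact ⟨h1, h2⟩

/-- M6 `UnitInt.lean` -/
theorem intOver_unitF9 (N q : ℕ) [NeZero N] [NeZero q] (hm : Nat.Coprime q 9) (hN : 9 * q ∣ N) :
    IntOver (jF N) (unitF EtaUnit.isW1_G9 q N hm hN) ∧
      IntOver (jF N) (((q : ℕ) : FN N) * (unitF EtaUnit.isW1_G9 q N hm hN)⁻¹) := by
  have h3 : ¬ 3 ∣ q := by
    intro h
    have h4 : 3 ∣ Nat.gcd q 9 := Nat.dvd_gcd h (by norm_num)
    rw [hm] at h4
    norm_num at h4
  obtain ⟨x, hx, -, hint⟩ := EtaFN.exists_unit9 (N := N) (E := 1) (E' := q) one_pos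
    (Nat.pos_of_ne_zero (NeZero.ne q)) (by norm_num) h3
    ((Nat.mul_dvd_mul_left 9 (one_dvd q)).trans hN) hN
  obtain ⟨h1, h2⟩ := hint (one_dvd q)
  have hc : PowerSeries.constantCoeff G9z = 1 := by
    rw [← G9s_eq]; exact EtaUnit.isW1_G9.const
  have hxe : x = unitF EtaUnit.isW1_G9 q N hm hN := by
    refine unitInt_eq_unitF _ N q hm hN x ?_
    rw [hx, G9s_eq]
    exact etaSer_ratio EtaFN.D9 EtaFN.r9 (by intro i; fin_cases i <;> simp [EtaFN.D9]) G9z hc
      etaSer_D9 q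
  rw [Nat.div_one] at h2
  rw [← hxe]
  exact ⟨h1, h2⟩

end Fermat.Agent.BAD.Model.EtaInst

end
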