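/-
Project BAD, block ETAINST, node V1 (`Val.lean`): valuations of elements with integral expansions,
valuations of a comap, uniformisers.   Proofs: helper205.
-/
import Fermat.Agent.BAD.Model.EtaInst.Defs
import Fermat.Agent.S36.Mod.GaussEmb.Basic

set_option autoImplicit false

noncomputable section

namespace Fermat.Agent.BAD.Model.EtaInst

open ModularCurve Fermat.Agent.S24 Fermat.Agent.S18 Fermat.Agent.S18.Vert Fermat.Agent.S36.Mod

section Val

variable {K : Type*} [Field K] {A : ValuationSubring K} [IsDiscreteValuationRing A]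
  {F : Type*} [Field F] (φ : IntEmb A F)

/-- V1 `Val.lean` -/
theorem val_lt_one_of_red_eq_zero {f : F} {P : LaurentSeries A} (hP : red A P = 0)
    (h : φ.toHom f = inc A P) : φ.val.valuation f < 1 := by
  rw [← ValuationSubring.mem_nonunits_iff]
  exact (φ.mem_nonunits_iff f).2 ⟨P, 1, by rw [map_one]; exact one_ne_zero, hP,
    by rw [h, map_one, mul_one]⟩

/-- V1 `Val.lean` -/
theorem val_sub_lt_one_of_red_eq {f g : F} {P Q : LaurentSeries A} (hPQ : red A P = red A Q)
    (hf : φ.toHom f = inc A P) (hg : φ.toHom g = inc A Q) : φ.val.valuation (f - g) < 1 :=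
  val_lt_one_of_red_eq_zero φ (P := P - Q) (by rw [map_sub, hPQ, sub_self])
    (by rw [map_sub, map_sub, hf, hg])

/-- V1 `Val.lean` -/
theorem valuation_comap_lt_one {F' : Type*} [Field F'] (V : ValuationSubring F) (ψ : F' →+* F)
    (y : F') : (V.comap ψ).valuation y < 1 ↔ V.valuation (ψ y) < 1 := by
  rw [← ValuationSubring.mem_nonunits_iff, ← ValuationSubring.mem_nonunits_iff,
    IntEmb.mem_nonunits_iff_aux, IntEmb.mem_nonunits_iff_aux, ValuationSubring.mem_comap,
    map_inv₀, map_eq_zero]

/-- V1 `Val.lean` -/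
theorem valuation_comap_eq_one {F' : Type*} [Field F'] (V : ValuationSubring F) (ψ : F' →+* F)
    (y : F') : (V.comap ψ).valuation y = 1 ↔ V.valuation (ψ y) = 1 := by
  have h1 : (V.comap ψ).valuation y ≤ 1 ↔ V.valuation (ψ y) ≤ 1 := by
    rw [ValuationSubring.valuation_le_one_iff, ValuationSubring.valuation_le_one_iff,
      ValuationSubring.mem_comap]
  have h2 := valuation_comap_lt_one V ψ y
  constructor
  · intro h
    exact le_antisymm (h1.1 h.le) (not_lt.1 fun hlt => (h2.2 hlt).ne h)
  · intro h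
    exact le_antisymm (h1.2 h.le) (not_lt.1 fun hlt => (h2.1 hlt).ne h)

/-- membership in a valuation subring only depends on the valuation. -/
theorem Val.mem_iff_of_valuation_eq (V : ValuationSubring F) {a b : F}
    (h : V.valuation a = V.valuation b) : a ∈ V ↔ b ∈ V := by
  rw [← ValuationSubring.valuation_le_one_iff, ← ValuationSubring.valuation_le_one_iff, h]

/-- V1 `Val.lean` -/
theorem isUnif_of_pow (V : ValuationSubring F) {ϖ z : F} {n : ℕ} (hn : 0 < n) (hU : IsUnif V ϖ)
    (h : V.valuation z ^ n = V.valuation ϖ ^ n) : IsUnif V z := by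
  have hz : V.valuation z = V.valuation ϖ := (pow_left_inj₀ zero_le zero_le hn.ne').1 h
  refine ⟨(Val.mem_iff_of_valuation_eq V hz).2 hU.mem, fun hinv => hU.inv_notMem
    ((Val.mem_iff_of_valuation_eq V (by rw [map_inv₀, map_inv₀, hz])).1 hinv), fun y hy => ?_⟩
  obtain ⟨m, h1, h2⟩ := hU.exists_zpow y hy
  have e : V.valuation (y / z ^ m) = V.valuation (y / ϖ ^ m) := by
    rw [map_div₀, map_div₀, map_zpow₀, map_zpow₀, hz]
  exact ⟨m, (Val.mem_iff_of_valuation_eq V e).2 h1,
    (Val.mem_iff_of_valuation_eq V (by rw [map_inv₀, map_inv₀, e])).2 h2⟩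

end Val

end Fermat.Agent.BAD.Model.EtaInst

end
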