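/-
Project BAD, block ETAINST (architect helper210), node Y1: the indicator functions on the component `V20`
(expansions at `∞`: `Y2 = G(t)/G(t^q)`, `Y0 = q G(t^(q q))/G(t^q)`, `Y1 = G(t^q)^2/(G(t) G(t^(q q)))`; Frobenius).
-/
import Fermat.Agent.BAD.Model.EtaInst.Defs
import Fermat.Agent.BAD.Model.EtaInst.Val
import Fermat.Agent.S36.Mod.HalfInst.Unif
import Fermat.Agent.S36.Mod.ThetaField
import Fermat.Agent.Lib.Hauptmodul.Basic

set_option autoImplicit false

noncomputable section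

namespace Fermat.Agent.BAD.Model.EtaInst

open ModularCurve Fermat.Agent.S24 Fermat.Agent.S18 Fermat.Agent.S18.Vert Fermat.Agent.S36.Mod
  Fermat.Agent.S36.BP Fermat.Agent.S18.Descent
open Fermat.Agent.Lib.Hauptmodul (toL dilZ etaProdInv)

theorem Y20_coeffMap_qExpand {R R' : Type*} [CommRing R] [CommRing R'] (f : R →+* R') (n : ℕ)
    [NeZero n] (x : LaurentSeries R) :
    coeffMap f (qExpand R n x) = qExpand R' n (coeffMap f x) := by
  ext k
  by_cases hk : (n : ℤ) ∣ k
  · obtain ⟨m, rfl⟩ := hk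
    rw [coeffMap_coeff, qExpand_coeff_mul, qExpand_coeff_mul, coeffMap_coeff]
  · rw [coeffMap_coeff, qExpand_coeff_of_not_dvd n _ hk, qExpand_coeff_of_not_dvd n _ hk, map_zero]

theorem Y20_mul_invZ {P : PowerSeries ℤ} (h : PowerSeries.constantCoeff P = 1) :
    P * invZ P = 1 :=
  PowerSeries.mul_invOfUnit _ _ (by rw [h]; rfl)

/-- Frobenius: `P(t^q) = P(t)^q` in characteristic `q`. -/
theorem Y20_frob_toL (k : Type*) [Field k] (q : ℕ) [NeZero q] (hq : q.Prime) [CharP k q]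
    (P : PowerSeries ℤ) : qExpand k q (toL k P) = toL k P ^ q := by
  have : Fact q.Prime := ⟨hq⟩
  rw [pow_char_eq_qExpand q (toL k P), Fermat.Agent.Lib.Hauptmodul.coeffMap_toL]

variable {K K' : Type*} [Field K] [Field K'] [Algebra ℚ K] [Algebra ℚ K'] [Algebra K Kbar]
  [Algebra K' Kbar] (S : Setup K K')

theorem Y20_residue_q : IsLocalRing.residue S.B ((S.q : ℕ) : S.B) = 0 := by
  rw [IsLocalRing.residue_eq_zero_iff, IsLocalRing.mem_maximalIdeal]
  exact S.unif.not_isUnit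

theorem Y20_charP : CharP (IsLocalRing.ResidueField S.B) S.q := by
  have h0 : ((S.q : ℕ) : IsLocalRing.ResidueField S.B) = 0 := by
    have h1 := Y20_residue_q S
    rwa [map_natCast] at h1
  exact (CharP.charP_iff_prime_eq_zero S.hq).2 h0

section Y

variable {S} {Gz : PowerSeries ℤ} {ε : ℤ} {x : S.F1}

/-- Y1 `Y20.lean`.  Expansions at `∞`: `Y2 = G(t)/G(t^q)`, `Y0 = q G(t^(q q))/G(t^q)`,
`Y1 = G(t^q)^2/(G(t) G(t^(q q)))`; Frobenius. -/
theorem Yf_V20 (D : UnitData S Gz ε x) :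
    S.V20.valuation (Yf S x 0) < 1 ∧ S.V20.valuation (Yf S x 1) = 1 ∧
      S.V20.valuation (Yf S x 2) = 1 ∧
      S.V20.valuation (Yf S x 1 - 1 * Yf S x 2 ^ (S.q - 1)) < 1 := by
  have hchar : CharP (IsLocalRing.ResidueField S.B) S.q := Y20_charP S
  set g : LaurentSeries S.B := toL S.B Gz with hg
  set gi : LaurentSeries S.B := toL S.B (invZ Gz) with hgi
  have hggi : g * gi = 1 := by rw [hg, hgi, ← map_mul, Y20_mul_invZ D.const, map_one]
  set PX : LaurentSeries S.B := g * qExpand S.B S.q gi with hPX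
  set PXi : LaurentSeries S.B := gi * qExpand S.B S.q g with hPXi
  have hPP : PX * PXi = 1 := by
    have h : PX * PXi = (g * gi) * qExpand S.B S.q (g * gi) := by
      rw [hPX, hPXi, map_mul]; ring
    rw [h, hggi, map_one, mul_one]
  have hincq : ∀ P : LaurentSeries S.B,
      inc S.B (qExpand S.B S.q P) = qExpand K S.q (inc S.B P) :=
    fun P => Y20_coeffMap_qExpand _ _ _
  have hredq : ∀ P : LaurentSeries S.B,
      red S.B (qExpand S.B S.q P) = qExpand _ S.q (red S.B P) :=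
    fun P => Y20_coeffMap_qExpand _ _ _
  have hinctoL : ∀ P : PowerSeries ℤ, inc S.B (toL S.B P) = toL K P :=
    fun P => Fermat.Agent.Lib.Hauptmodul.coeffMap_toL _ P
  have hredtoL : ∀ P : PowerSeries ℤ, red S.B (toL S.B P) = toL _ P :=
    fun P => Fermat.Agent.Lib.Hauptmodul.coeffMap_toL _ P
  have hx : S.e1oo.toHom x = inc S.B PX := by
    rw [Setup.e1oo, stdEmb_toHom_apply, D.coe, hPX, map_mul, hincq, hg, hgi, hinctoL, hinctoL]
  have hincPP : inc S.B PX * inc S.B PXi = 1 := by rw [← map_mul, hPP, map_one]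
  have hxi : (inc S.B PX)⁻¹ = inc S.B PXi := inv_eq_of_mul_eq_one_right hincPP
  have h2 : S.e20.toHom (Yf S x 2) = inc S.B PX := by
    show S.e20.toHom (S.al1 x) = _
    rw [S.e20_al1, hx]
  have h0 : S.e20.toHom (Yf S x 0) =
      inc S.B (HahnSeries.C ((S.q : ℕ) : S.B) * qExpand S.B S.q PXi) := by
    show S.e20.toHom (((S.q : ℕ) : S.F2) * (S.be1 x)⁻¹) = _
    have hq1 : (((S.q : ℕ) : S.B) : K) = ((S.q : ℕ) : K) := by push_cast; rfl
    have e : inc S.B (HahnSeries.C ((S.q : ℕ) : S.B) * qExpand S.B S.q PXi) =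
        ((S.q : ℕ) : LaurentSeries K) * qExpand K S.q (inc S.B PXi) := by
      rw [map_mul (inc S.B), hincq, inc_C, hq1, map_natCast]
    rw [e, map_mul, map_inv₀, S.e20_be1, hx, ← map_inv₀, hxi, map_natCast]
  have h1 : S.e20.toHom (Yf S x 1) = inc S.B (qExpand S.B S.q PX * PXi) := by
    show S.e20.toHom (S.be1 x * (S.al1 x)⁻¹) = _
    have e : inc S.B (qExpand S.B S.q PX * PXi) = qExpand K S.q (inc S.B PX) * inc S.B PXi := by
      rw [map_mul (inc S.B), hincq]
    rw [e, map_mul, map_inv₀, S.e20_be1, S.e20_al1, hx, hxi]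
  have hredPP : red S.B PX * red S.B PXi = 1 := by rw [← map_mul, hPP, map_one]
  have hredPX : red S.B PX ≠ 0 := left_ne_zero_of_mul_eq_one hredPP
  -- Frobenius
  have hfrob : qExpand _ S.q (red S.B PX) = red S.B PX ^ S.q := by
    rw [hPX, map_mul, hredq, hg, hgi, hredtoL, hredtoL, map_mul, Y20_frob_toL _ S.q S.hq Gz,
      Y20_frob_toL _ S.q S.hq (invZ Gz), map_pow, Y20_frob_toL _ S.q S.hq (invZ Gz), mul_pow]
  have hcong : red S.B (qExpand S.B S.q PX * PXi) = red S.B (PX ^ (S.q - 1)) := by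
    have hq : S.q = (S.q - 1) + 1 := (Nat.sub_add_cancel S.hq.one_le).symm
    rw [map_mul, hredq, hfrob, map_pow]
    conv_lhs => rw [hq, pow_succ, mul_assoc, hredPP, mul_one]
  refine ⟨?_, ?_, ?_, ?_⟩
  · refine val_lt_one_of_red_eq_zero S.e20 ?_ h0
    rw [map_mul, red_C, Y20_residue_q, map_zero, zero_mul]
  · refine Unif_valuation_eq_one_of_inc S.e20 ?_ h1
    rw [hcong, map_pow]
    exact pow_ne_zero _ hredPX
  · exact Unif_valuation_eq_one_of_inc S.e20 hredPX h2
  · refine val_sub_lt_one_of_red_eq S.e20 hcong h1 ?_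
    rw [one_mul, map_pow, h2, map_pow]

end Y

end Fermat.Agent.BAD.Model.EtaInst

end
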