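/-
Project BAD, block ETAINST (sub-architect helper210), node Y0 (helper123): the product of the
indicator functions and the action of the Atkin-Lehner involution on them.
-/
import Fermat.Agent.BAD.Model.EtaInst.Defs
import Fermat.Agent.S36.Mod.HalfInst.Compose

set_option autoImplicit false
set_option linter.unusedSectionVars false

noncomputable section

namespace Fermat.Agent.BAD.Model.EtaInst

open ModularCurve Fermat.Agent.S24 Fermat.Agent.S18 Fermat.Agent.S18.Vert Fermat.Agent.S36.Mod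
  Fermat.Agent.S18.Descent
open Fermat.Agent.Lib.Hauptmodul (toL dilZ etaProdInv)

variable {K K' : Type*} [Field K] [Field K'] [Algebra ℚ K] [Algebra ℚ K'] [Algebra K Kbar]
  [Algebra K' Kbar] (S : Setup K K')

section Y

variable {S} {Gz : PowerSeries ℤ} {ε : ℤ} {x : S.F1}

theorem YBasic_Yf_zero : Yf S x 0 = ((S.q : ℕ) : S.F2) * (S.be1 x)⁻¹ := rfl

theorem YBasic_Yf_one : Yf S x 1 = S.be1 x * (S.al1 x)⁻¹ := rfl

theorem YBasic_Yf_two : Yf S x 2 = S.al1 x := rfl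

theorem YBasic_charZero (N : ℕ) : CharZero (FK K N) :=
  have : CharZero K := algebraRat.charZero K
  charZero_of_injective_algebraMap (algebraMap K (FK K N)).injective

theorem YBasic_q_ne_zero (S : Setup K K') (N : ℕ) : ((S.q : ℕ) : FK K N) ≠ 0 := by
  have := YBasic_charZero (K := K) N
  exact Nat.cast_ne_zero.mpr S.hq.ne_zero

theorem YBasic_eps_sq {ε : ℤ} (h : ε = 1 ∨ ε = -1) (N : ℕ) :
    ((ε : ℤ) : FK K N) * ((ε : ℤ) : FK K N) = 1 := by
  rcases h with rfl | rfl <;> simp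

theorem YBasic_eps_ne_zero {ε : ℤ} (h : ε = 1 ∨ ε = -1) (N : ℕ) : ((ε : ℤ) : FK K N) ≠ 0 := by
  intro h0
  have := YBasic_eps_sq (K := K) h N
  rw [h0, mul_zero] at this
  exact zero_ne_one this

theorem YBasic_x_ne_zero (D : UnitData S Gz ε x) : x ≠ 0 := by
  intro h0
  have h := D.al
  rw [h0, mul_zero] at h
  exact mul_ne_zero (YBasic_eps_ne_zero D.eps _) (YBasic_q_ne_zero S _) h.symm

theorem YBasic_w1 (D : UnitData S Gz ε x) :
    S.w1 x = ((ε : ℤ) : S.F1) * ((S.q : ℕ) : S.F1) * x⁻¹ := by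
  rw [← D.al, mul_assoc, mul_inv_cancel₀ (YBasic_x_ne_zero D), mul_one]

theorem YBasic_al1_w1 (D : UnitData S Gz ε x) :
    S.al1 (S.w1 x) = ((ε : ℤ) : S.F2) * ((S.q : ℕ) : S.F2) * (S.al1 x)⁻¹ := by
  rw [YBasic_w1 D, map_mul, map_mul, map_inv₀, map_intCast, map_natCast]

theorem YBasic_be1_w1 (D : UnitData S Gz ε x) :
    S.be1 (S.w1 x) = ((ε : ℤ) : S.F2) * ((S.q : ℕ) : S.F2) * (S.be1 x)⁻¹ := by
  rw [YBasic_w1 D, map_mul, map_mul, map_inv₀, map_intCast, map_natCast]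

theorem YBasic_al1_ne_zero (D : UnitData S Gz ε x) : S.al1 x ≠ 0 := by
  rw [Ne, map_eq_zero]
  exact YBasic_x_ne_zero D

theorem YBasic_be1_ne_zero (D : UnitData S Gz ε x) : S.be1 x ≠ 0 := by
  rw [Ne, map_eq_zero]
  exact YBasic_x_ne_zero D

/-- Y0 `YBasic.lean` -/
theorem Yf_prod (D : UnitData S Gz ε x) :
    Yf S x 0 * Yf S x 1 * Yf S x 2 = ((S.q : ℕ) : S.F2) := by
  rw [YBasic_Yf_zero, YBasic_Yf_one, YBasic_Yf_two]
  have h1 := YBasic_al1_ne_zero D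
  have h2 := YBasic_be1_ne_zero D
  field_simp

/-- Y0 `YBasic.lean`.  (`w2_al1`, `w2_be1`, `D.al`.) -/
theorem w2_Yf (D : UnitData S Gz ε x) :
    S.w2 (Yf S x 0) = ((ε : ℤ) : S.F2) * Yf S x 2 ∧ S.w2 (Yf S x 1) = Yf S x 1 ∧
      S.w2 (Yf S x 2) = ((ε : ℤ) : S.F2) * Yf S x 0 := by
  rw [YBasic_Yf_zero, YBasic_Yf_one, YBasic_Yf_two]
  have h1 := YBasic_al1_ne_zero D
  have h2 := YBasic_be1_ne_zero D
  have h3 : ((S.q : ℕ) : S.F2) ≠ 0 := YBasic_q_ne_zero S _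
  have h4 : ((ε : ℤ) : S.F2) ≠ 0 := YBasic_eps_ne_zero D.eps _
  have h5 : ((ε : ℤ) : S.F2) * ((ε : ℤ) : S.F2) = 1 := YBasic_eps_sq D.eps _
  refine ⟨?_, ?_, ?_⟩
  · rw [map_mul, map_inv₀, map_natCast, S.w2_be1, YBasic_al1_w1 D]
    generalize S.al1 x = a at *
    generalize ((S.q : ℕ) : S.F2) = c at *
    generalize ((ε : ℤ) : S.F2) = d at *
    have h6 : d⁻¹ = d := inv_eq_of_mul_eq_one_left h5
    rw [mul_inv, mul_inv, inv_inv, h6]
    field_simp
  · rw [map_mul, map_inv₀, S.w2_be1, S.w2_al1, YBasic_al1_w1 D, YBasic_be1_w1 D]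
    field_simp
  · rw [S.w2_al1, YBasic_be1_w1 D, mul_assoc]

end Y

end Fermat.Agent.BAD.Model.EtaInst

end
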