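/-
Project BAD, block ETAINST, node Y2 (`Y02.lean`): the indicator functions on the component `(0,2)`,
from the component `(2,0)` and the Atkin-Lehner involution `w2`.   Proofs: helper196 (task 2274).
Uses `w2_Yf` (Y0) and `Yf_V20` (Y1) of the skeleton.
-/
import Fermat.Agent.BAD.Model.EtaInst.Val
import Fermat.Agent.BAD.Model.EtaInst.YBasic
import Fermat.Agent.BAD.Model.EtaInst.Y20

set_option autoImplicit false

noncomputable section

namespace Fermat.Agent.BAD.Model.EtaInst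

open ModularCurve Fermat.Agent.S24 Fermat.Agent.S18 Fermat.Agent.S18.Vert Fermat.Agent.S36.Mod
  Fermat.Agent.S36.BP Fermat.Agent.S18.Descent
open Fermat.Agent.Lib.Hauptmodul (toL dilZ etaProdInv)
open scoped MatrixGroups

/-- the abstract form of `Yf_V02`: transport along an involution `w`. -/
theorem Y02_transport {k F : Type*} [Field k] [Field F] [Algebra k F] (V : ValuationSubring F)
    (w : F →ₐ[k] F) (Y0 Y1 Y2 : F) (ε : ℤ) (n : ℕ) (hε : ε = 1 ∨ ε = -1)
    (a0 : w Y0 = ((ε : ℤ) : F) * Y2) (a1 : w Y1 = Y1) (a2 : w Y2 = ((ε : ℤ) : F) * Y0)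
    (b0 : V.valuation Y0 < 1) (b1 : V.valuation Y1 = 1) (b2 : V.valuation Y2 = 1)
    (b3 : V.valuation (Y1 - 1 * Y2 ^ n) < 1) :
    (V.comap w.toRingHom).valuation Y2 < 1 ∧ (V.comap w.toRingHom).valuation Y1 = 1 ∧
      (V.comap w.toRingHom).valuation Y0 = 1 ∧
      (V.comap w.toRingHom).valuation (Y1 - ((ε : ℤ) : F) ^ n * Y0 ^ n) < 1 := by
  have hv : V.valuation ((ε : ℤ) : F) = 1 := by
    rcases hε with h | h
    · rw [h, Int.cast_one, map_one]
    · rw [h, Int.cast_neg, Int.cast_one, Valuation.map_neg, map_one]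
  have hεε : ((ε : ℤ) : F) * ((ε : ℤ) : F) = 1 := by
    rcases hε with h | h
    · rw [h, Int.cast_one, mul_one]
    · rw [h, Int.cast_neg, Int.cast_one, neg_mul_neg, mul_one]
  rw [valuation_comap_lt_one, valuation_comap_eq_one, valuation_comap_eq_one,
    valuation_comap_lt_one]
  refine ⟨?_, ?_, ?_, ?_⟩
  · change V.valuation (w Y2) < 1
    rw [a2, map_mul, hv, one_mul]
    exact b0
  · change V.valuation (w Y1) = 1
    rw [a1]
    exact b1
  · change V.valuation (w Y0) = 1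
    rw [a0, map_mul, hv, one_mul]
    exact b2
  · change V.valuation (w (Y1 - ((ε : ℤ) : F) ^ n * Y0 ^ n)) < 1
    have e : w (Y1 - ((ε : ℤ) : F) ^ n * Y0 ^ n) = Y1 - 1 * Y2 ^ n := by
      rw [map_sub, map_mul, map_pow, map_pow, map_intCast, a0, a1, mul_pow, ← mul_assoc,
        ← mul_pow, hεε, one_pow]
    rw [e]
    exact b3

variable {K K' : Type*} [Field K] [Field K'] [Algebra ℚ K] [Algebra ℚ K'] [Algebra K Kbar]
  [Algebra K' Kbar] (S : Setup K K')

theorem Y02_V02_eq : S.V02 = S.V20.comap S.w2.toRingHom :=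
  IntEmb.val_comp S.e20 S.w2.toRingHom

section Y

variable {S} {Gz : PowerSeries ℤ} {ε : ℤ} {x : S.F1}

/-- Y2 `Y02.lean`.  From `Yf_V20`, `w2_Yf`, `V02 = V20.comap w2`. -/
theorem Yf_V02 (D : UnitData S Gz ε x) :
    S.V02.valuation (Yf S x 2) < 1 ∧ S.V02.valuation (Yf S x 1) = 1 ∧
      S.V02.valuation (Yf S x 0) = 1 ∧
      S.V02.valuation (Yf S x 1 - ((ε : ℤ) : S.F2) ^ (S.q - 1) * Yf S x 0 ^ (S.q - 1)) < 1 := by
  obtain ⟨a0, a1, a2⟩ := w2_Yf D
  obtain ⟨b0, b1, b2, b3⟩ := Yf_V20 D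
  rw [Y02_V02_eq S]
  exact Y02_transport S.V20 S.w2 _ _ _ ε (S.q - 1) D.eps a0 a1 a2 b0 b1 b2 b3

end Y

end Fermat.Agent.BAD.Model.EtaInst

end
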