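/-
Project BAD, block ETAINST (sub-architect helper210), node S1: formal series
(`invZ`, `toL`, `qExpand`, Frobenius).
-/
import Fermat.Agent.BAD.Model.EtaInst.Defs
import Fermat.Agent.Lib.Hauptmodul.Basic
import Fermat.Agent.GAL.E.Frob

set_option autoImplicit false

noncomputable section

namespace Fermat.Agent.BAD.Model.EtaInst

open ModularCurve Fermat.Agent.S24 Fermat.Agent.S18 Fermat.Agent.S18.Vert Fermat.Agent.S36.Mod
  Fermat.Agent.S36.BP Fermat.Agent.S18.Descent
open Fermat.Agent.Lib.Hauptmodul (toL dilZ etaProdInv)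
open scoped MatrixGroups

/-! ## Part S : formal series -/

section Series

variable {R R' : Type*} [CommRing R] [CommRing R']

/-- S1 `Series.lean` -/
theorem mul_invZ {P : PowerSeries ℤ} (h : PowerSeries.constantCoeff P = 1) : P * invZ P = 1 :=
  PowerSeries.mul_invOfUnit _ _ (by rw [h]; rfl)

/-- S1 `Series.lean` -/
theorem constantCoeff_invZ {P : PowerSeries ℤ} (h : PowerSeries.constantCoeff P = 1) :
    PowerSeries.constantCoeff (invZ P) = 1 := by
  have h1 := congrArg (PowerSeries.constantCoeff (R := ℤ)) (mul_invZ h)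
  rwa [map_mul, h, one_mul, map_one] at h1

/-- S1 `Series.lean` -/
theorem coeffMap_toL (φ : R →+* R') (P : PowerSeries ℤ) : coeffMap φ (toL R P) = toL R' P :=
  Fermat.Agent.Lib.Hauptmodul.coeffMap_toL φ P

/-- S1 `Series.lean` -/
theorem qExpand_toL (d : ℕ) [NeZero d] (P : PowerSeries ℤ) :
    qExpand R d (toL R P) = toL R (dilZ d P) :=
  (Fermat.Agent.Lib.Hauptmodul.toL_dilZ R d P).symm

/-- S1 `Series.lean` -/
theorem toL_ne_zero [Nontrivial R] {P : PowerSeries ℤ} (h : PowerSeries.constantCoeff P = 1) :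
    toL R P ≠ 0 := by
  intro h0
  have h1 := Fermat.Agent.Lib.Hauptmodul.toL_coeff_natCast R P 0
  rw [h0, PowerSeries.coeff_zero_eq_constantCoeff_apply, h] at h1
  simp at h1

/-- S1 `Series.lean`.  Frobenius: `P(t^q) = P(t)^q` in characteristic `q`. -/
theorem frob_toL (k : Type*) [Field k] (q : ℕ) [NeZero q] (hq : q.Prime) [CharP k q]
    (P : PowerSeries ℤ) : qExpand k q (toL k P) = toL k P ^ q := by
  have : Fact q.Prime := ⟨hq⟩
  rw [Fermat.Agent.GAL.E.pow_char_eq_qExpand q, coeffMap_toL]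

end Series

end Fermat.Agent.BAD.Model.EtaInst

end
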