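/-
Project BAD, block ETAINST, node S2: twisting an integral series by a root of unity `ζ ≡ 1`.
Proofs: helper168.
-/
import Fermat.Agent.BAD.Model.EtaInst.Defs
import Fermat.Agent.S36.Mod.HalfInst.Cyclo
import Fermat.Agent.Lib.Hauptmodul.Basic
import Fermat.Agent.S18.Vert.IntSeries
import Fermat.Agent.S24.B.Laurent

set_option autoImplicit false

noncomputable section

namespace Fermat.Agent.BAD.Model.EtaInst

open ModularCurve Fermat.Agent.S24 Fermat.Agent.S18 Fermat.Agent.S18.Vert Fermat.Agent.S36.Mod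
open Fermat.Agent.Lib.Hauptmodul (toL dilZ etaProdInv toL_coeff_natCast toL_coeff_of_neg)

variable {L : Type*} [Field L] (A : ValuationSubring L)

theorem Twist.coeff_X_mul_derivative (T : PowerSeries ℤ) (m : ℕ) :
    (PowerSeries.X * PowerSeries.derivative ℤ T).coeff m = m * T.coeff m := by
  cases m with
  | zero => simp
  | succ k =>
    rw [PowerSeries.coeff_succ_X_mul, PowerSeries.coeff_derivative]
    push_cast
    ring

theorem Twist.residue_eq_of_sub_mem {a b : A} (h : (a : L) - (b : L) ∈ A.nonunits) :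
    IsLocalRing.residue A a = IsLocalRing.residue A b := by
  rw [← sub_eq_zero, ← map_sub, IsLocalRing.residue_eq_zero_iff,
    ← ValuationSubring.coe_mem_nonunits_iff]
  exact h

/-- S2 `Twist.lean`.  `P(ζ t) ≡ P(t)` modulo `ζ - 1`. -/
theorem exists_twist_toL (ζ : Lˣ) (hζ : (ζ : L) - 1 ∈ A.nonunits) (P : PowerSeries ℤ) :
    ∃ U : LaurentSeries A, inc A U = S24.B.twist ζ (toL L P) ∧
      red A U = toL (IsLocalRing.ResidueField A) P := by
  have hζA : (ζ : L) ∈ A := by
    have h1 : (ζ : L) = ((ζ : L) - 1) + 1 := by ring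
    rw [h1]
    exact A.add_mem _ _ (A.nonunits_subset hζ) A.one_mem
  have hres : IsLocalRing.residue A ⟨(ζ : L), hζA⟩ = 1 := by
    rw [← map_one (IsLocalRing.residue A)]
    exact Twist.residue_eq_of_sub_mem A hζ
  have hcoeff : ∀ m : ℕ, (S24.B.twist ζ (toL L P)).coeff (m : ℤ) =
      (((⟨(ζ : L), hζA⟩ : A) ^ m * ((P.coeff m : ℤ) : A) : A) : L) := by
    intro m
    rw [S24.B.twist_coeff, toL_coeff_natCast, zpow_natCast, Units.val_pow_eq_pow_val]
    push_cast
    rfl
  have hmem : ∀ n : ℤ, (S24.B.twist ζ (toL L P)).coeff n ∈ A := by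
    intro n
    rcases lt_or_ge n 0 with hn | hn
    · rw [S24.B.twist_coeff, toL_coeff_of_neg _ _ hn, mul_zero]
      exact A.zero_mem
    · obtain ⟨m, rfl⟩ := Int.eq_ofNat_of_zero_le hn
      rw [hcoeff m]
      exact Subtype.property _
  refine ⟨liftS A _ hmem, inc_liftS A _ hmem, ?_⟩
  ext n
  rw [red_coeff]
  rcases lt_or_ge n 0 with hn | hn
  · rw [toL_coeff_of_neg _ _ hn]
    have : (liftS A _ hmem).coeff n = 0 := by
      apply Subtype.ext
      show (S24.B.twist ζ (toL L P)).coeff n = 0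
      rw [S24.B.twist_coeff, toL_coeff_of_neg _ _ hn, mul_zero]
    rw [this, map_zero]
  · obtain ⟨m, rfl⟩ := Int.eq_ofNat_of_zero_le hn
    have : (liftS A _ hmem).coeff (m : ℤ) = (⟨(ζ : L), hζA⟩ : A) ^ m * ((P.coeff m : ℤ) : A) :=
      Subtype.ext (hcoeff m)
    rw [this, map_mul, map_pow, hres, one_pow, one_mul, map_intCast, toL_coeff_natCast]

/-- S2 `Twist.lean`.  `f(ζ t) - f(t) = (ζ - 1) U`, `U ≡ θ f`, for `f = t⁻¹ T`
(`cyc_exists_quot`: `(ζ^n - 1)/(ζ - 1) ≡ n`). -/
theorem exists_twist_sub (q : ℕ) (hq : q.Prime) (hqA : (q : L) ∈ A.nonunits) (ζ : Lˣ)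
    (hζ : IsPrimitiveRoot ζ q) (hmem : (ζ : L) - 1 ∈ A) (T : PowerSeries ℤ) :
    ∃ U : LaurentSeries A,
      S24.B.twist ζ (HahnSeries.single (-1 : ℤ) 1 * toL L T) - HahnSeries.single (-1 : ℤ) 1 * toL L T
        = inc A (HahnSeries.C ⟨(ζ : L) - 1, hmem⟩ * U) ∧
      red A U = HahnSeries.single (-1 : ℤ) 1 *
        toL (IsLocalRing.ResidueField A) (PowerSeries.X * PowerSeries.derivative ℤ T - T) := by
  have hζ' : IsPrimitiveRoot (ζ : L) q := IsPrimitiveRoot.coe_units_iff.2 hζ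
  choose c hcA hc hcn using cyc_exists_quot A hζ' hq hqA
  have hresc : ∀ n : ℤ, IsLocalRing.residue A ⟨c n, hcA n⟩ = ((n : ℤ) : IsLocalRing.ResidueField A) := by
    intro n
    rw [← map_intCast (IsLocalRing.residue A) n]
    apply Twist.residue_eq_of_sub_mem A
    have := hcn n
    simpa using this
  set fA : LaurentSeries A := HahnSeries.single (-1 : ℤ) 1 * toL A T with hfA
  have hfAc : ∀ n : ℤ, fA.coeff n = (toL A T).coeff (n + 1) := by
    intro n
    rw [hfA, HahnSeries.coeff_single_mul, one_mul, sub_neg_eq_add]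
  have hcast : ∀ n : ℤ, (((toL A T).coeff n : A) : L) = (toL L T).coeff n := by
    intro n
    rcases lt_or_ge n 0 with hn | hn
    · rw [toL_coeff_of_neg _ _ hn, toL_coeff_of_neg _ _ hn]
      rfl
    · obtain ⟨m, rfl⟩ := Int.eq_ofNat_of_zero_le hn
      rw [toL_coeff_natCast, toL_coeff_natCast]
      push_cast
      rfl
  refine ⟨⟨fun n => ⟨c n, hcA n⟩ * fA.coeff n, fA.isPWO_support.mono ?_⟩, ?_, ?_⟩
  · intro n hn
    simp only [Function.mem_support, ne_eq] at hn ⊢
    intro h0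
    apply hn
    rw [h0, mul_zero]
  · ext n
    rw [HahnSeries.coeff_sub, S24.B.twist_coeff, inc_coeff, coeff_C_mul,
      HahnSeries.coeff_single_mul, one_mul, sub_neg_eq_add, Units.val_zpow_eq_zpow_val]
    show (ζ : L) ^ n * (toL L T).coeff (n + 1) - (toL L T).coeff (n + 1) =
      ((ζ : L) - 1) * (c n * ((fA.coeff n : A) : L))
    rw [hfAc, hcast]
    linear_combination (toL L T).coeff (n + 1) * hc n
  · ext n
    rw [red_coeff, HahnSeries.coeff_single_mul, one_mul, sub_neg_eq_add]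
    show IsLocalRing.residue A (⟨c n, hcA n⟩ * fA.coeff n) = _
    rw [map_mul, hresc, hfAc]
    rcases lt_or_ge (n + 1) 0 with hn | hn
    · rw [toL_coeff_of_neg _ _ hn, toL_coeff_of_neg _ _ hn, map_zero, mul_zero]
    · obtain ⟨m, hm⟩ := Int.eq_ofNat_of_zero_le hn
      rw [hm, toL_coeff_natCast, toL_coeff_natCast, map_intCast, map_sub,
        Twist.coeff_X_mul_derivative]
      have hn' : n = (m : ℤ) - 1 := by omega
      rw [hn']
      push_cast
      ring

end Fermat.Agent.BAD.Model.EtaInst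

end
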