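/-
Project BAD, block ETAINST, node Y3: the indicator functions on the middle component `V11`.
Owner: helper296.
-/
import Fermat.Agent.BAD.Model.EtaInst.Series
import Fermat.Agent.BAD.Model.EtaInst.Twist
import Fermat.Agent.BAD.Model.EtaInst.Val
import Fermat.Agent.S36.Mod.HalfInst.Unif

set_option autoImplicit false

noncomputable section

namespace Fermat.Agent.BAD.Model.EtaInst

open ModularCurve Fermat.Agent.S24 Fermat.Agent.S18 Fermat.Agent.S18.Vert Fermat.Agent.S36.Mod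
  Fermat.Agent.S36.BP Fermat.Agent.S18.Descent
open Fermat.Agent.Lib.Hauptmodul (toL dilZ etaProdInv)
open scoped MatrixGroups

namespace Y11

theorem toL_mul_inv (R : Type*) [CommRing R] {P : PowerSeries ℤ}
    (h : PowerSeries.constantCoeff P = 1) : toL R P * toL R (invZ P) = 1 := by
  rw [← map_mul, mul_invZ h, map_one]

theorem toL_dil_mul_inv (R : Type*) [CommRing R] (d : ℕ) [NeZero d] {P : PowerSeries ℤ}
    (h : PowerSeries.constantCoeff P = 1) :
    toL R (dilZ d P) * toL R (dilZ d (invZ P)) = 1 := by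
  rw [← qExpand_toL, ← qExpand_toL, ← map_mul, toL_mul_inv R h, map_one]

theorem inc_toL {L : Type*} [Field L] (A : ValuationSubring L) (P : PowerSeries ℤ) :
    inc A (toL A P) = toL L P :=
  coeffMap_toL A.subtype P

theorem red_toL {L : Type*} [Field L] (A : ValuationSubring L) (P : PowerSeries ℤ) :
    red A (toL A P) = toL (IsLocalRing.ResidueField A) P :=
  coeffMap_toL (IsLocalRing.residue A) P

theorem red_natCast_eq_zero {L : Type*} [Field L] (A : ValuationSubring L) {n : ℕ}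
    (hn : (n : L) ∈ A.nonunits) : red A ((n : ℕ) : LaurentSeries A) = 0 := by
  rw [map_natCast]
  have h1 : ((n : ℕ) : IsLocalRing.ResidueField A) = 0 := by
    obtain ⟨ha, hm⟩ := ValuationSubring.mem_nonunits_iff_exists_mem_maximalIdeal.mp hn
    have h2 : IsLocalRing.residue A ⟨(n : L), ha⟩ = 0 := (IsLocalRing.residue_eq_zero_iff _).2 hm
    have h3 : (⟨(n : L), ha⟩ : A) = ((n : ℕ) : A) := Subtype.ext (by push_cast; rfl)
    rw [h3, map_natCast] at h2
    exact h2
  rw [← map_natCast (HahnSeries.C : IsLocalRing.ResidueField A →+*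
    LaurentSeries (IsLocalRing.ResidueField A)), h1, map_zero]

variable {K K' : Type*} [Field K] [Field K'] [Algebra ℚ K] [Algebra ℚ K'] [Algebra K Kbar]
  [Algebra K' Kbar] {S : Setup K K'} {Gz : PowerSeries ℤ} {ε : ℤ} {x : S.F1}

theorem coe_x (D : UnitData S Gz ε x) :
    (x : LaurentSeries K) = toL K Gz * toL K (dilZ S.q (invZ Gz)) := by
  rw [D.coe, qExpand_toL]

theorem coe_x_mul (D : UnitData S Gz ε x) :
    (x : LaurentSeries K) * (toL K (invZ Gz) * toL K (dilZ S.q Gz)) = 1 := by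
  rw [coe_x D]
  calc toL K Gz * toL K (dilZ S.q (invZ Gz)) * (toL K (invZ Gz) * toL K (dilZ S.q Gz))
      = (toL K Gz * toL K (invZ Gz)) * (toL K (dilZ S.q Gz) * toL K (dilZ S.q (invZ Gz))) := by
        ring
    _ = 1 := by rw [toL_mul_inv K D.const, toL_dil_mul_inv K S.q D.const, one_mul]

theorem x_ne_zero (D : UnitData S Gz ε x) : x ≠ 0 := by
  rintro rfl
  have h := coe_x_mul D
  rw [ZeroMemClass.coe_zero, zero_mul] at h
  exact zero_ne_one h

theorem e11_al1_x (D : UnitData S Gz ε x) :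
    S.e11.toHom (S.al1 x) = toL K' Gz * toL K' (dilZ S.q (invZ Gz)) := by
  rw [S.e11_al1, Setup.e1oo, stdEmb_toHom_apply, coe_x D, map_mul, coeffMap_toL,
    coeffMap_toL]

theorem coe_w1_x (D : UnitData S Gz ε x) :
    ((S.w1 x : S.F1) : LaurentSeries K) =
      ((ε : ℤ) : LaurentSeries K) * ((S.q : ℕ) : LaurentSeries K) *
        (toL K (invZ Gz) * toL K (dilZ S.q Gz)) := by
  have h1 : ((S.w1 x : S.F1) : LaurentSeries K) * (x : LaurentSeries K) =
      ((ε : ℤ) : LaurentSeries K) * ((S.q : ℕ) : LaurentSeries K) := by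
    have h := congrArg (fun y : S.F1 => (y : LaurentSeries K)) D.al
    simpa using h
  calc ((S.w1 x : S.F1) : LaurentSeries K)
      = ((S.w1 x : S.F1) : LaurentSeries K) *
          ((x : LaurentSeries K) * (toL K (invZ Gz) * toL K (dilZ S.q Gz))) := by
        rw [coe_x_mul D, mul_one]
    _ = ((S.w1 x : S.F1) : LaurentSeries K) * (x : LaurentSeries K) *
          (toL K (invZ Gz) * toL K (dilZ S.q Gz)) := by ring
    _ = _ := by rw [h1]

theorem e11_be1_x (D : UnitData S Gz ε x) :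
    S.e11.toHom (S.be1 x) =
      ((ε : ℤ) : LaurentSeries K') * ((S.q : ℕ) : LaurentSeries K') *
        (S24.B.twist S.ζ (toL K' (invZ Gz)) * toL K' (dilZ S.q Gz)) := by
  have h0 : S.e10.toHom x = ((S.w1 x : S.F1) : LaurentSeries K) := rfl
  have h1 : S24.B.twist S.ζ (toL K' (dilZ S.q Gz)) = toL K' (dilZ S.q Gz) := by
    rw [← qExpand_toL, Setup.twist_qExpand_of_pow_eq_one S.q S.ζ S.hζ.pow_eq_one]
  rw [S.e11_be1, h0, coe_w1_x D]
  simp only [map_mul, map_intCast, map_natCast, coeffMap_toL, h1]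

end Y11

variable {K K' : Type*} [Field K] [Field K'] [Algebra ℚ K] [Algebra ℚ K'] [Algebra K Kbar]
  [Algebra K' Kbar] (S : Setup K K')

section Y

variable {S} {Gz : PowerSeries ℤ} {ε : ℤ} {x : S.F1}

open Y11 in
/-- Y3 `Y11.lean`.  Expansions at the middle cusp (`e11_al1`, `e11_be1`, `D.al`):
`Y2 = G(t)/G(t^q)`, `Y0 = ε G(ζ t)/G(t^q)`, `Y1 = ε q G(t^q)^2/(G(t) G(ζ t))`. -/
theorem Yf_V11 (D : UnitData S Gz ε x) :
    S.V11.valuation (Yf S x 1) < 1 ∧ S.V11.valuation (Yf S x 0) = 1 ∧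
      S.V11.valuation (Yf S x 2) = 1 ∧
      S.V11.valuation (Yf S x 0 - ((ε : ℤ) : S.F2) * Yf S x 2) < 1 := by
  obtain ⟨U, hU1, hU2⟩ := exists_twist_toL S.B' S.ζ S.Unif_zeta_sub_one_nonunit Gz
  obtain ⟨Ui, hUi1, hUi2⟩ :=
    exists_twist_toL S.B' S.ζ S.Unif_zeta_sub_one_nonunit (invZ Gz)
  have hal := e11_al1_x D
  have hbe := e11_be1_x D
  have hε2 : ∀ (R : Type _) [CommRing R], ((ε : ℤ) : R) * ((ε : ℤ) : R) = 1 := by
    intro R _
    rcases D.eps with h | h <;> rw [h] <;> simp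
  have hTT : S24.B.twist S.ζ (toL K' Gz) * S24.B.twist S.ζ (toL K' (invZ Gz)) = 1 := by
    rw [← map_mul, toL_mul_inv K' D.const, map_one]
  have hx0 : x ≠ 0 := x_ne_zero D
  have hal0 : S.al1 x ≠ 0 := (map_ne_zero _).2 hx0
  have hbe0 : S.be1 x ≠ 0 := (map_ne_zero _).2 hx0
  have hal0' : S.e11.toHom (S.al1 x) ≠ 0 := (map_ne_zero _).2 hal0
  have hbe0' : S.e11.toHom (S.be1 x) ≠ 0 := (map_ne_zero _).2 hbe0
  -- the three expansions
  have hY2 : S.e11.toHom (Yf S x 2) =
      inc S.B' (toL S.B' Gz * toL S.B' (dilZ S.q (invZ Gz))) := by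
    rw [map_mul, inc_toL, inc_toL]
    exact hal
  have hY0 : S.e11.toHom (Yf S x 0) =
      inc S.B' (((ε : ℤ) : LaurentSeries S.B') * (U * toL S.B' (dilZ S.q (invZ Gz)))) := by
    rw [map_mul, map_mul, map_intCast, hU1, inc_toL]
    have h1 : Yf S x 0 * S.be1 x = ((S.q : ℕ) : S.F2) := by
      show ((S.q : ℕ) : S.F2) * (S.be1 x)⁻¹ * S.be1 x = _
      rw [mul_assoc, inv_mul_cancel₀ hbe0, mul_one]
    have h2 := congrArg S.e11.toHom h1
    rw [map_mul, map_natCast] at h2
    apply mul_right_cancel₀ hbe0'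
    rw [h2, hbe]
    calc ((S.q : ℕ) : LaurentSeries K')
        = (((ε : ℤ) : LaurentSeries K') * ((ε : ℤ) : LaurentSeries K')) *
            ((S.q : ℕ) : LaurentSeries K') *
            (S24.B.twist S.ζ (toL K' Gz) * S24.B.twist S.ζ (toL K' (invZ Gz))) *
            (toL K' (dilZ S.q Gz) * toL K' (dilZ S.q (invZ Gz))) := by
          rw [hε2, hTT, toL_dil_mul_inv K' S.q D.const]; ring
      _ = _ := by ring
  have hY1 : S.e11.toHom (Yf S x 1) =
      inc S.B' (((S.q : ℕ) : LaurentSeries S.B') * (((ε : ℤ) : LaurentSeries S.B') *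
        (Ui * toL S.B' (dilZ S.q Gz) * (toL S.B' (invZ Gz) * toL S.B' (dilZ S.q Gz))))) := by
    simp only [map_mul, map_intCast, map_natCast, hUi1, inc_toL]
    have h1 : Yf S x 1 * S.al1 x = S.be1 x := by
      show S.be1 x * (S.al1 x)⁻¹ * S.al1 x = _
      rw [mul_assoc, inv_mul_cancel₀ hal0, mul_one]
    have h2 := congrArg S.e11.toHom h1
    rw [map_mul] at h2
    apply mul_right_cancel₀ hal0'
    rw [h2, hbe, hal]
    calc ((ε : ℤ) : LaurentSeries K') * ((S.q : ℕ) : LaurentSeries K') *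
          (S24.B.twist S.ζ (toL K' (invZ Gz)) * toL K' (dilZ S.q Gz))
        = ((ε : ℤ) : LaurentSeries K') * ((S.q : ℕ) : LaurentSeries K') *
          (S24.B.twist S.ζ (toL K' (invZ Gz)) * toL K' (dilZ S.q Gz)) *
          ((toL K' Gz * toL K' (invZ Gz)) *
            (toL K' (dilZ S.q Gz) * toL K' (dilZ S.q (invZ Gz)))) := by
          rw [toL_mul_inv K' D.const, toL_dil_mul_inv K' S.q D.const]; ring
      _ = _ := by ring
  have hεY2 : S.e11.toHom (((ε : ℤ) : S.F2) * Yf S x 2) =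
      inc S.B' (((ε : ℤ) : LaurentSeries S.B') *
        (toL S.B' Gz * toL S.B' (dilZ S.q (invZ Gz)))) := by
    rw [map_mul, map_intCast, hY2]
    simp only [map_mul, map_intCast]
  -- the reductions
  have hr2 : red S.B' (toL S.B' Gz * toL S.B' (dilZ S.q (invZ Gz))) =
      toL S.kk Gz * toL S.kk (dilZ S.q (invZ Gz)) := by
    rw [map_mul, red_toL, red_toL]
  have hr2' : toL S.kk Gz * toL S.kk (dilZ S.q (invZ Gz)) ≠ 0 := by
    intro h0
    have h1 : (toL S.kk Gz * toL S.kk (dilZ S.q (invZ Gz))) *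
        (toL S.kk (invZ Gz) * toL S.kk (dilZ S.q Gz)) = 1 := by
      calc _ = (toL S.kk Gz * toL S.kk (invZ Gz)) *
            (toL S.kk (dilZ S.q Gz) * toL S.kk (dilZ S.q (invZ Gz))) := by ring
        _ = 1 := by rw [toL_mul_inv S.kk D.const, toL_dil_mul_inv S.kk S.q D.const, one_mul]
    rw [h0, zero_mul] at h1
    exact zero_ne_one h1
  have hr0 : red S.B' (((ε : ℤ) : LaurentSeries S.B') * (U * toL S.B' (dilZ S.q (invZ Gz)))) =
      ((ε : ℤ) : LaurentSeries S.kk) * (toL S.kk Gz * toL S.kk (dilZ S.q (invZ Gz))) := by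
    rw [map_mul, map_mul, map_intCast, hU2, red_toL]
  have hεk : ((ε : ℤ) : LaurentSeries S.kk) ≠ 0 := by
    intro h0
    have h1 := hε2 (LaurentSeries S.kk)
    rw [h0, zero_mul] at h1
    exact zero_ne_one h1
  refine ⟨?_, ?_, ?_, ?_⟩
  · refine val_lt_one_of_red_eq_zero S.e11 ?_ hY1
    rw [map_mul, red_natCast_eq_zero S.B' S.q_nonunit', zero_mul]
  · refine Unif_valuation_eq_one_of_inc S.e11 ?_ hY0
    rw [hr0]
    exact mul_ne_zero hεk hr2'
  · refine Unif_valuation_eq_one_of_inc S.e11 ?_ hY2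
    rw [hr2]
    exact hr2'
  · refine val_sub_lt_one_of_red_eq S.e11 ?_ hY0 hεY2
    rw [hr0, map_mul, map_intCast, hr2]

end Y

end Fermat.Agent.BAD.Model.EtaInst

end
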