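/-
Project BAD, block ETAINST (sub-architect helper210), node Y4: the indicator functions `Y0`, `Y2`,
`q Y1` are integral over `ℤ[j]`.
-/
import Fermat.Agent.BAD.Model.EtaInst.IntOver
import Fermat.Agent.BAD.Model.EtaInst.Chase

set_option autoImplicit false

noncomputable section

namespace Fermat.Agent.BAD.Model.EtaInst

open ModularCurve Fermat.Agent.S24 Fermat.Agent.S18 Fermat.Agent.S18.Vert Fermat.Agent.S36.Mod
  Fermat.Agent.S36.BP Fermat.Agent.S18.Descent
open Fermat.Agent.Lib.Hauptmodul (toL dilZ etaProdInv)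
open scoped MatrixGroups

variable {K K' : Type*} [Field K] [Field K'] [Algebra ℚ K] [Algebra ℚ K'] [Algebra K Kbar]
  [Algebra K' Kbar] {S : Setup K K'} {Gz : PowerSeries ℤ} {ε : ℤ} {x : S.F1}

/-- Y4 `YInt.lean` -/
theorem intOver_Yf (D : UnitData S Gz ε x) :
    IntOver (jj K (S.N0 * S.q * S.q)) (Yf S x 0) ∧ IntOver (jj K (S.N0 * S.q * S.q)) (Yf S x 2) ∧
      IntOver (jj K (S.N0 * S.q * S.q)) (((S.q : ℕ) : S.F2) * Yf S x 1) := by
  have hal : ∀ {y : S.F1}, IntOver (jj K (S.N0 * S.q)) y →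
      IntOver (jj K (S.N0 * S.q * S.q)) (S.al1 y) := by
    intro y hy
    have h := IntOver.map (S.al1 : S.F1 →+* S.F2) hy
    rw [RingHom.coe_coe, al1_jj] at h
    exact h
  have hbe : ∀ {y : S.F1}, IntOver (jj K (S.N0 * S.q)) y →
      IntOver (jj K (S.N0 * S.q * S.q)) (S.be1 y) := by
    intro y hy
    exact (intOver_be1_jj S).trans (IntOver.map (S.be1 : S.F1 →+* S.F2) hy)
  refine ⟨?_, hal D.int, ?_⟩
  · have h := hbe D.int'
    rw [map_mul, map_natCast, map_inv₀] at h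
    exact h
  · have h := (hbe D.int).mul (hal D.int')
    rw [map_mul, map_natCast, map_inv₀] at h
    have e : ((S.q : ℕ) : S.F2) * Yf S x 1 =
        S.be1 x * (((S.q : ℕ) : S.F2) * (S.al1 x)⁻¹) := by
      show ((S.q : ℕ) : S.F2) * (S.be1 x * (S.al1 x)⁻¹) = _
      ring
    rw [e]
    exact h

end Fermat.Agent.BAD.Model.EtaInst

end
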