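/-
Project BAD, block ETAINST, node S3 (`Wilson.lean`, helper151):
`(ζ - 1)^(q-1) = q u` with `u ≡ -1` modulo the maximal ideal (`q` odd).
-/
import Fermat.Agent.S36.Mod.HalfInst.Cyclo

set_option autoImplicit false

noncomputable section

namespace Fermat.Agent.BAD.Model.EtaInst

open Fermat.Agent.S36.Mod

section Series

variable {L : Type*} [Field L] (A : ValuationSubring L)

private theorem wilson_add {x y : L} (hx : x ∈ A.nonunits) (hy : y ∈ A.nonunits) :
    x + y ∈ A.nonunits := by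
  rw [ValuationSubring.mem_nonunits_iff] at *
  exact Valuation.map_add_lt _ hx hy

private theorem wilson_mul {x y : L} (hx : x ∈ A.nonunits) (hy : y ∈ A) :
    x * y ∈ A.nonunits := by
  rw [ValuationSubring.mem_nonunits_iff] at *
  rw [← ValuationSubring.valuation_le_one_iff] at hy
  rw [map_mul]
  exact (mul_le_of_le_one_right' hy).trans_lt hx

private theorem wilson_prod_congr (s : Finset ℕ) (f g : ℕ → L) (hf : ∀ i ∈ s, f i ∈ A)
    (hg : ∀ i ∈ s, g i ∈ A) (h : ∀ i ∈ s, f i - g i ∈ A.nonunits) :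
    ∏ i ∈ s, f i - ∏ i ∈ s, g i ∈ A.nonunits := by
  classical
  induction s using Finset.induction_on with
  | empty =>
    simp only [Finset.prod_empty, sub_self]
    rw [ValuationSubring.mem_nonunits_iff, map_zero]
    exact zero_lt_one
  | insert a s ha ih =>
    rw [Finset.prod_insert ha, Finset.prod_insert ha]
    have h1 := ih (fun i hi => hf i (Finset.mem_insert_of_mem hi))
      (fun i hi => hg i (Finset.mem_insert_of_mem hi))
      (fun i hi => h i (Finset.mem_insert_of_mem hi))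
    have h2 : f a * ∏ i ∈ s, f i - g a * ∏ i ∈ s, g i =
        (f a - g a) * ∏ i ∈ s, f i + (∏ i ∈ s, f i - ∏ i ∈ s, g i) * g a := by ring
    rw [h2]
    refine wilson_add A (wilson_mul A (h a (Finset.mem_insert_self _ _)) ?_)
      (wilson_mul A h1 (hg a (Finset.mem_insert_self _ _)))
    exact prod_mem fun i hi => hf i (Finset.mem_insert_of_mem hi)

private theorem wilson_primitiveRoots [DecidableEq L] {q : ℕ} {ζ : L} (hζ : IsPrimitiveRoot ζ q)
    (hq : q.Prime) : primitiveRoots q L = (Finset.Ico 1 q).image (fun i => ζ ^ i) := by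
  ext μ
  rw [mem_primitiveRoots hq.pos, Finset.mem_image]
  constructor
  · intro hμ
    have : NeZero q := ⟨hq.ne_zero⟩
    obtain ⟨i, hi, hcop, rfl⟩ := hζ.isPrimitiveRoot_iff.1 hμ
    refine ⟨i, Finset.mem_Ico.2 ⟨?_, hi⟩, rfl⟩
    rcases Nat.eq_zero_or_pos i with h0 | h0
    · rw [h0, Nat.coprime_zero_left] at hcop
      exact absurd hcop hq.one_lt.ne'
    · exact h0
  · rintro ⟨i, hi, rfl⟩
    rw [Finset.mem_Ico] at hi
    refine hζ.pow_of_coprime i ?_
    exact (Nat.coprime_of_lt_prime (by omega) hi.2 hq).symm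

/-- S3 `Wilson.lean`.  `(ζ - 1)^(q-1) = q u`, `u ≡ -1` (`q = ∏ (1 - ζ^i)`, `(1 - ζ^i)/(1 - ζ) ≡ i`,
Wilson's theorem; `q` odd). -/
theorem cyc_exists_unit_wilson {q : ℕ} {ζ : L} (hζ : IsPrimitiveRoot ζ q) (hq : q.Prime)
    (hq2 : q ≠ 2) (hqA : (q : L) ∈ A.nonunits) :
    ∃ u : L, u ∈ A ∧ u + 1 ∈ A.nonunits ∧ (ζ - 1) ^ (q - 1) = (q : L) * u := by
  classical
  have : Fact q.Prime := ⟨hq⟩
  have : NeZero q := ⟨hq.ne_zero⟩
  -- `q = ∏ (1 - ζ ^ i)`
  have h1 : (q : L) = ∏ i ∈ Finset.Ico 1 q, (1 - ζ ^ i) := by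
    have h2 := Polynomial.cyclotomic_eq_prod_X_sub_primitiveRoots hζ
    have h3 := congrArg (Polynomial.eval 1) h2
    rw [Polynomial.eval_one_cyclotomic_prime, Polynomial.eval_prod, wilson_primitiveRoots hζ hq,
      Finset.prod_image] at h3
    · simpa using h3
    · intro i hi j hj hij
      rw [Finset.coe_Ico, Set.mem_Ico] at hi hj
      exact hζ.pow_inj hi.2 hj.2 hij
  -- the quotients
  have hc : ∀ i : ℕ, ∃ c ∈ A, ζ ^ i - 1 = (ζ - 1) * c ∧ c - (i : L) ∈ A.nonunits := by
    intro i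
    obtain ⟨c, hc, h2, h3⟩ := cyc_exists_quot A hζ hq hqA (i : ℤ)
    refine ⟨c, hc, ?_, ?_⟩
    · rw [← h2, zpow_natCast]
    · simpa using h3
  choose c hcA hc1 hc2 using hc
  set C : L := ∏ i ∈ Finset.Ico 1 q, c i with hC
  have hodd : Even (q - 1) := by
    rcases hq.eq_two_or_odd' with h | h
    · exact absurd h hq2
    · exact Nat.Odd.sub_odd h odd_one
  have h4 : (q : L) = (ζ - 1) ^ (q - 1) * C := by
    rw [h1, hC]
    have : ∀ i ∈ Finset.Ico 1 q, (1 - ζ ^ i) = (-(ζ - 1)) * c i := by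
      intro i _
      linear_combination -hc1 i
    rw [Finset.prod_congr rfl this, Finset.prod_mul_distrib, Finset.prod_const, Nat.card_Ico,
      hodd.neg_pow]
  -- Wilson
  have hCA : C ∈ A := prod_mem fun i _ => hcA i
  have h5 : C - (((q - 1).factorial : ℕ) : L) ∈ A.nonunits := by
    have h6 : (((q - 1).factorial : ℕ) : L) = ∏ i ∈ Finset.Ico 1 q, (i : L) := by
      have := Finset.prod_Ico_id_eq_factorial (q - 1)
      rw [Nat.sub_add_cancel hq.one_le] at this
      rw [← this]
      push_cast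
      rfl
    rw [h6]
    exact wilson_prod_congr A _ _ _ (fun i _ => hcA i) (fun i _ => natCast_mem _ i)
      (fun i _ => hc2 i)
  have h7 : (((q - 1).factorial : ℕ) : L) + 1 ∈ A.nonunits := by
    have hw := ZMod.wilsons_lemma q
    have hw' : (((q - 1).factorial + 1 : ℕ) : ZMod q) = 0 := by
      push_cast
      rw [hw]
      ring
    obtain ⟨m, hm⟩ := (ZMod.natCast_eq_zero_iff _ _).1 hw'
    have : (((q - 1).factorial : ℕ) : L) + 1 = (q : L) * (m : L) := by
      exact_mod_cast congrArg (Nat.cast : ℕ → L) hm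
    rw [this]
    exact wilson_mul A hqA (natCast_mem _ m)
  have h8 : C + 1 ∈ A.nonunits := by
    have := wilson_add A h5 h7
    rwa [show C - (((q - 1).factorial : ℕ) : L) + ((((q - 1).factorial : ℕ) : L) + 1) = C + 1 by
      ring] at this
  -- `C` is a unit
  have hCval : A.valuation C = 1 := by
    rw [ValuationSubring.mem_nonunits_iff] at h8
    have h9 : A.valuation (C + 1 + -1) = A.valuation (-1 : L) :=
      Valuation.map_add_eq_of_lt_right _ (by rwa [Valuation.map_neg, map_one])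
    rwa [add_neg_cancel_right, Valuation.map_neg, map_one] at h9
  have hC0 : C ≠ 0 := by
    intro h
    rw [h, map_zero] at hCval
    exact zero_ne_one hCval
  have hCinv : C⁻¹ ∈ A := by
    rw [← ValuationSubring.valuation_le_one_iff, map_inv₀, hCval, inv_one]
  refine ⟨C⁻¹, hCinv, ?_, ?_⟩
  · have : C⁻¹ + 1 = (C + 1) * C⁻¹ := by
      field_simp
      ring
    rw [this]
    exact wilson_mul A h8 hCinv
  · rw [h4]
    field_simp

end Series

end Fermat.Agent.BAD.Model.EtaInst

end
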