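/-
Project BAD, layer L-MOD, block ETAINST (sub-architect helper210), node Z1 `ZExp.lean` (helper266):
the expansion of `z = t(q² τ)/t(τ) - 1` at the middle cusp: `z = (ζ - 1) U`, `U ≡ θ t / t = - G²`.
Uses the nodes `mul_invZ`, `coeffMap_toL` (S1), `exists_twist_sub` (S2), `e11_al1_al0`,
`e11_be1_be0` (C1).
-/
import Fermat.Agent.BAD.Model.EtaInst.Series
import Fermat.Agent.BAD.Model.EtaInst.Twist
import Fermat.Agent.BAD.Model.EtaInst.Chase
import Fermat.Agent.S36.Mod.HalfInst.Unif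

set_option autoImplicit false

noncomputable section

namespace Fermat.Agent.BAD.Model.EtaInst

open ModularCurve Fermat.Agent.S24 Fermat.Agent.S18 Fermat.Agent.S18.Vert Fermat.Agent.S36.Mod
  Fermat.Agent.S36.BP Fermat.Agent.S18.Descent
open Fermat.Agent.Lib.Hauptmodul (toL dilZ etaProdInv)
open scoped MatrixGroups

/-- `(t⁻¹ T) * (t T⁻¹) = 1`. -/
theorem ZExp_single_mul (R : Type*) [CommRing R] {T : PowerSeries ℤ}
    (h : PowerSeries.constantCoeff T = 1) :
    (HahnSeries.single (-1 : ℤ) (1 : R) * toL R T) *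
      (HahnSeries.single (1 : ℤ) (1 : R) * toL R (invZ T)) = 1 := by
  have h1 : (HahnSeries.single (-1 : ℤ) (1 : R) * toL R T) *
      (HahnSeries.single (1 : ℤ) (1 : R) * toL R (invZ T)) =
      (HahnSeries.single (-1 : ℤ) (1 : R) * HahnSeries.single (1 : ℤ) (1 : R)) *
        toL R (T * invZ T) := by
    rw [map_mul]; ring
  rw [h1, mul_invZ h, (toL R).map_one, mul_one, HahnSeries.single_mul_single]
  simp

variable {K K' : Type*} [Field K] [Field K'] [Algebra ℚ K] [Algebra ℚ K'] [Algebra K Kbar]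
  [Algebra K' Kbar] (S : Setup K K')

section Z

variable {S} {Gz Tz : PowerSeries ℤ} {ε : ℤ} {x : S.F1} {t : S.F0}

/-- Z1 `ZExp.lean`.  `z = t(ζ X)/t(X) - 1 = (ζ - 1) U`, `U ≡ θ t / t = - G²`. -/
theorem exists_e11_zf (H : HauptData S Gz Tz t) :
    ∃ U : LaurentSeries S.B',
      S.e11.toHom (zf S t) = inc S.B' (HahnSeries.C ⟨(S.ζ : K') - 1, S.Unif_zeta_sub_one_mem⟩ * U) ∧
      red S.B' U = - toL S.kk Gz ^ 2 := by
  obtain ⟨U0, hU0, hred⟩ := exists_twist_sub S.B' S.q S.hq S.q_nonunit' S.ζ S.hζ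
    S.Unif_zeta_sub_one_mem Tz
  -- the expansion of `t` over `K'`
  have ht : coeffMap S.ι (t : LaurentSeries K) = HahnSeries.single (-1 : ℤ) 1 * toL K' Tz := by
    rw [H.coe, map_mul, coeffMap_single, map_one, coeffMap_toL]
  have hinv := ZExp_single_mul K' H.const
  have hne : (HahnSeries.single (-1 : ℤ) (1 : K') * toL K' Tz) ≠ 0 := left_ne_zero_of_mul_eq_one hinv
  have hinv' : (HahnSeries.single (-1 : ℤ) (1 : K') * toL K' Tz)⁻¹ =
      HahnSeries.single (1 : ℤ) (1 : K') * toL K' (invZ Tz) := inv_eq_of_mul_eq_one_right hinv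
  have hinc : inc S.B' (HahnSeries.single (1 : ℤ) (1 : S.B') * toL S.B' (invZ Tz)) =
      HahnSeries.single (1 : ℤ) (1 : K') * toL K' (invZ Tz) := by
    rw [map_mul]
    congr 1
    · exact coeffMap_single _ _ _
    · exact coeffMap_toL _ _
  refine ⟨U0 * (HahnSeries.single (1 : ℤ) (1 : S.B') * toL S.B' (invZ Tz)), ?_, ?_⟩
  · rw [← mul_assoc, map_mul, hinc, ← hU0, zf, map_sub, map_mul, map_inv₀, map_one,
      e11_al1_al0, e11_be1_be0, ht, hinv', sub_mul, hinv]
  · have hr : red S.B' (HahnSeries.single (1 : ℤ) (1 : S.B') * toL S.B' (invZ Tz)) =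
        HahnSeries.single (1 : ℤ) (1 : S.kk) * toL S.kk (invZ Tz) := by
      rw [map_mul]
      congr 1
      · exact (coeffMap_single _ _ _).trans (by rw [map_one])
      · exact coeffMap_toL _ _
    rw [map_mul, hred, hr, H.der, map_neg, map_mul, map_pow]
    have h3 := ZExp_single_mul S.kk H.const
    calc HahnSeries.single (-1 : ℤ) (1 : S.kk) * -(toL S.kk Gz ^ 2 * toL S.kk Tz) *
          (HahnSeries.single (1 : ℤ) (1 : S.kk) * toL S.kk (invZ Tz))
        = - toL S.kk Gz ^ 2 * ((HahnSeries.single (-1 : ℤ) (1 : S.kk) * toL S.kk Tz) *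
          (HahnSeries.single (1 : ℤ) (1 : S.kk) * toL S.kk (invZ Tz))) := by ring
      _ = - toL S.kk Gz ^ 2 := by rw [h3, mul_one]

end Z

end Fermat.Agent.BAD.Model.EtaInst

end
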