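/-
Project BAD, block ETAINST, node Z2: `(z^(q-1)/q) Y0 Y2 ≡ - ε` on the middle component `V11`.
Owner: helper120.
-/
import Fermat.Agent.BAD.Model.EtaInst.Y11
import Fermat.Agent.BAD.Model.EtaInst.ZExp
import Fermat.Agent.BAD.Model.EtaInst.Wilson
import Fermat.Agent.BAD.Model.EtaInst.Series
import Fermat.Agent.BAD.Model.EtaInst.Val

set_option autoImplicit false

noncomputable section

namespace Fermat.Agent.BAD.Model.EtaInst

open ModularCurve Fermat.Agent.S24 Fermat.Agent.S18 Fermat.Agent.S18.Vert Fermat.Agent.S36.Mod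
  Fermat.Agent.S36.BP Fermat.Agent.S18.Descent
open Fermat.Agent.Lib.Hauptmodul (toL dilZ etaProdInv)
open scoped MatrixGroups

namespace ZCong

/-- the final computation in the residue field of the middle component. -/
theorem key_identity {R : Type*} [CommRing R] (m : ℕ) (hm : 0 < m) (G Gi e : R) (h : G * Gi = 1) :
    (-1) * (G ^ 2) ^ (m - 1) * ((e * (G * Gi ^ m)) * (G * Gi ^ m)) = -e := by
  obtain ⟨n, rfl⟩ : ∃ n, m = n + 1 := ⟨m - 1, by omega⟩
  have h1 : (-1) * (G ^ 2) ^ (n + 1 - 1) * ((e * (G * Gi ^ (n + 1))) * (G * Gi ^ (n + 1)))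
      = -e * (G * Gi) ^ (2 * n + 2) := by
    rw [Nat.add_sub_cancel]
    ring
  rw [h1, h, one_pow, mul_one]

theorem natCast_residue_eq_zero {L : Type*} [Field L] (A : ValuationSubring L) {n : ℕ}
    (hn : (n : L) ∈ A.nonunits) : ((n : ℕ) : IsLocalRing.ResidueField A) = 0 := by
  obtain ⟨ha, hm⟩ := ValuationSubring.mem_nonunits_iff_exists_mem_maximalIdeal.mp hn
  have h2 : IsLocalRing.residue A ⟨(n : L), ha⟩ = 0 := (IsLocalRing.residue_eq_zero_iff _).2 hm
  have h3 : (⟨(n : L), ha⟩ : A) = ((n : ℕ) : A) := Subtype.ext (by push_cast; rfl)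
  rw [h3, map_natCast] at h2
  exact h2

theorem residue_eq_neg_one {L : Type*} [Field L] (A : ValuationSubring L) {u : L} (hu : u ∈ A)
    (h : u + 1 ∈ A.nonunits) : IsLocalRing.residue A ⟨u, hu⟩ = -1 := by
  obtain ⟨ha, hm⟩ := ValuationSubring.mem_nonunits_iff_exists_mem_maximalIdeal.mp h
  have h2 : IsLocalRing.residue A ⟨u + 1, ha⟩ = 0 := (IsLocalRing.residue_eq_zero_iff _).2 hm
  have h3 : (⟨u + 1, ha⟩ : A) = ⟨u, hu⟩ + 1 := Subtype.ext rfl
  rw [h3, map_add, map_one] at h2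
  exact eq_neg_of_add_eq_zero_left h2

end ZCong

variable {K K' : Type*} [Field K] [Field K'] [Algebra ℚ K] [Algebra ℚ K'] [Algebra K Kbar]
  [Algebra K' Kbar] (S : Setup K K')

section Z

variable {S} {Gz Tz : PowerSeries ℤ} {ε : ℤ} {x : S.F1} {t : S.F0}

open Y11 ZCong in
/-- Z2 `ZCong.lean`.  `(z^(q-1)/q) Y0 Y2 ≡ - ε` on the middle component. -/
theorem zf_cong (hq2 : S.q ≠ 2) (D : UnitData S Gz ε x) (H : HauptData S Gz Tz t) :
    S.V11.valuation (zf S t ^ (S.q - 1) / ((S.q : ℕ) : S.F2) * (Yf S x 0 * Yf S x 2) -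
      (- ((ε : ℤ) : S.F2))) < 1 := by
  obtain ⟨Uz, hUz1, hUz2⟩ := exists_e11_zf H
  obtain ⟨u, huB, hu1, huq⟩ :=
    cyc_exists_unit_wilson S.B' S.Unif_zeta_prim S.hq hq2 S.q_nonunit'
  obtain ⟨U, hU1, hU2⟩ := exists_twist_toL S.B' S.ζ S.Unif_zeta_sub_one_nonunit Gz
  have hal := e11_al1_x D
  have hbe := e11_be1_x D
  have hε2 : ∀ (R : Type _) [CommRing R], ((ε : ℤ) : R) * ((ε : ℤ) : R) = 1 := by
    intro R _
    rcases D.eps with h | h <;> rw [h] <;> simp
  have hTT : S24.B.twist S.ζ (toL K' Gz) * S24.B.twist S.ζ (toL K' (invZ Gz)) = 1 := by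
    rw [← map_mul, toL_mul_inv K' D.const, map_one]
  have hx0 : x ≠ 0 := x_ne_zero D
  have hbe0 : S.be1 x ≠ 0 := (map_ne_zero _).2 hx0
  have hbe0' : S.e11.toHom (S.be1 x) ≠ 0 := (map_ne_zero _).2 hbe0
  -- the expansions of `Y2`, `Y0` (as in `Y11.lean`)
  have hY2 : S.e11.toHom (Yf S x 2) =
      inc S.B' (toL S.B' Gz * toL S.B' (dilZ S.q (invZ Gz))) := by
    rw [map_mul, inc_toL, inc_toL]
    exact hal
  have hY0 : S.e11.toHom (Yf S x 0) =
      inc S.B' (((ε : ℤ) : LaurentSeries S.B') * (U * toL S.B' (dilZ S.q (invZ Gz)))) := by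
    rw [map_mul, map_mul, map_intCast, hU1, inc_toL]
    have h1 : Yf S x 0 * S.be1 x = ((S.q : ℕ) : S.F2) := by
      show ((S.q : ℕ) : S.F2) * (S.be1 x)⁻¹ * S.be1 x = _
      rw [mul_assoc, inv_mul_cancel₀ hbe0, mul_one]
    have h2 := congrArg S.e11.toHom h1
    rw [map_mul, map_natCast] at h2
    apply mul_right_cancel₀ hbe0'
    rw [h2, hbe]
    calc ((S.q : ℕ) : LaurentSeries K')
        = (((ε : ℤ) : LaurentSeries K') * ((ε : ℤ) : LaurentSeries K')) *
            ((S.q : ℕ) : LaurentSeries K') *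
            (S24.B.twist S.ζ (toL K' Gz) * S24.B.twist S.ζ (toL K' (invZ Gz))) *
            (toL K' (dilZ S.q Gz) * toL K' (dilZ S.q (invZ Gz))) := by
          rw [hε2, hTT, toL_dil_mul_inv K' S.q D.const]; ring
      _ = _ := by ring
  -- the expansion of `z^(q-1)/q`
  have : CharZero K' := algebraRat.charZero K'
  have hq0 : ((S.q : ℕ) : LaurentSeries K') ≠ 0 := by
    rw [← map_natCast (algebraMap K' (LaurentSeries K'))]
    exact (map_ne_zero _).2 (Nat.cast_ne_zero.2 S.hq.ne_zero)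
  have hZ : S.e11.toHom (zf S t ^ (S.q - 1) / ((S.q : ℕ) : S.F2)) =
      inc S.B' (HahnSeries.C ⟨u, huB⟩ * Uz ^ (S.q - 1)) := by
    rw [map_div₀, map_pow, map_natCast, hUz1, map_mul, map_mul, map_pow, mul_pow, inc_C, inc_C,
      ← map_pow]
    change algebraMap K' (LaurentSeries K') (((S.ζ : K') - 1) ^ (S.q - 1)) * _ / _ =
      algebraMap K' (LaurentSeries K') u * _
    rw [huq, map_mul, map_natCast, mul_assoc, mul_div_cancel_left₀ _ hq0]
  have hf : S.e11.toHom (zf S t ^ (S.q - 1) / ((S.q : ℕ) : S.F2) * (Yf S x 0 * Yf S x 2)) =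
      inc S.B' (HahnSeries.C ⟨u, huB⟩ * Uz ^ (S.q - 1) *
        ((((ε : ℤ) : LaurentSeries S.B') * (U * toL S.B' (dilZ S.q (invZ Gz)))) *
          (toL S.B' Gz * toL S.B' (dilZ S.q (invZ Gz))))) := by
    rw [map_mul, map_mul, hZ, hY0, hY2, ← map_mul, ← map_mul]
  have hg : S.e11.toHom (- ((ε : ℤ) : S.F2)) = inc S.B' (- ((ε : ℤ) : LaurentSeries S.B')) := by
    rw [map_neg, map_intCast, map_neg, map_intCast]
  -- the reductions
  have : CharP S.kk S.q :=
    (CharP.charP_iff_prime_eq_zero S.hq).2 (natCast_residue_eq_zero S.B' S.q_nonunit')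
  have hfrob : toL S.kk (dilZ S.q (invZ Gz)) = toL S.kk (invZ Gz) ^ S.q := by
    rw [← qExpand_toL, frob_toL S.kk S.q S.hq]
  refine val_sub_lt_one_of_red_eq S.e11 ?_ hf hg
  rw [map_mul, map_mul, map_mul, map_mul, map_mul, map_mul, map_pow, map_intCast, map_neg,
    map_intCast, red_C, residue_eq_neg_one S.B' huB hu1, hUz2, hU2, red_toL, red_toL, hfrob,
    map_neg, map_one, (S.hq.even_sub_one hq2).neg_pow]
  exact key_identity S.q S.hq.pos _ _ _ (toL_mul_inv S.kk D.const)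

end Z

end Fermat.Agent.BAD.Model.EtaInst

end
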