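/-
Project BAD, block ETAINST, node Z3: `zf S t` lies in every integrally closed ring containing `B`
and `j`.
-/
import Fermat.Agent.BAD.Model.EtaInst.IntOver
import Fermat.Agent.BAD.Model.EtaInst.Chase

set_option autoImplicit false

noncomputable section

namespace Fermat.Agent.BAD.Model.EtaInst

open ModularCurve Fermat.Agent.S24 Fermat.Agent.S18 Fermat.Agent.S18.Vert Fermat.Agent.S36.Mod
  Fermat.Agent.S36.BP Fermat.Agent.S18.Descent
open Fermat.Agent.Lib.Hauptmodul (toL dilZ etaProdInv)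
open scoped MatrixGroups

variable {K K' : Type*} [Field K] [Field K'] [Algebra ℚ K] [Algebra ℚ K'] [Algebra K Kbar]
  [Algebra K' Kbar] (S : Setup K K')

/-- an integer prime to `q` is invertible in `B`. -/
theorem ZInt_inv_natCast_mem {m : ℕ} (hm : m.Coprime S.q) : ((m : ℕ) : K)⁻¹ ∈ S.B := by
  obtain ⟨a, b, hab⟩ := (Nat.isCoprime_iff_coprime.2 hm : IsCoprime (m : ℤ) (S.q : ℤ))
  have h1 : ((a : ℤ) : S.B) * ((m : ℕ) : S.B) + ((b : ℤ) : S.B) * ((S.q : ℕ) : S.B) = 1 := by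
    have := congrArg (fun z : ℤ => (z : S.B)) hab
    push_cast at this
    exact this
  have hu : IsUnit ((m : ℕ) : S.B) := by
    rcases IsLocalRing.isUnit_or_isUnit_of_add_one h1 with h | h
    · exact isUnit_of_mul_isUnit_right h
    · exact absurd (isUnit_of_mul_isUnit_right h) S.unif.not_isUnit
  have hv : S.B.valuation (((m : ℕ) : S.B) : K) = 1 := (S.B.valuation_eq_one_iff _).1 hu
  rw [← ValuationSubring.valuation_le_one_iff, map_inv₀]
  have hv' : S.B.valuation ((m : ℕ) : K) = 1 := by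
    rw [← hv]
    congr 1
  rw [hv', inv_one]

section Z

variable {S} {Gz Tz : PowerSeries ℤ} {ε : ℤ} {x : S.F1} {t : S.F0}

/-- Z3 `ZInt.lean` -/
theorem zf_mem (H : HauptData S Gz Tz t) (R : Subring S.F2)
    (hcl : ∀ y : S.F2, IsIntegral R y → y ∈ R) (hB : ∀ a ∈ S.B, algebraMap K S.F2 a ∈ R)
    (hj : jj K (S.N0 * S.q * S.q) ∈ R) : zf S t ∈ R := by
  -- the numerator
  have h1 : S.be1 (S.be0 t) ∈ R := by
    have a1 : IntOver (S.be0 (jj K S.N0)) (S.be0 t) := IntOver.map S.be0.toRingHom H.int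
    have a2 : IntOver (jj K (S.N0 * S.q)) (S.be0 t) := IntOver.trans (intOver_be0_jj S) a1
    have a3 : IntOver (S.be1 (jj K (S.N0 * S.q))) (S.be1 (S.be0 t)) :=
      IntOver.map S.be1.toRingHom a2
    exact IntOver.mem hcl hj (IntOver.trans (intOver_be1_jj S) a3)
  -- the denominator
  obtain ⟨m, hm, hint⟩ := H.int'
  have h2 : S.al1 (S.al0 ((m : S.F0) * t⁻¹)) ∈ R := by
    have a1 : IntOver (S.al0 (jj K S.N0)) (S.al0 ((m : S.F0) * t⁻¹)) :=
      IntOver.map S.al0.toRingHom hint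
    rw [al0_jj] at a1
    have a2 : IntOver (S.al1 (jj K (S.N0 * S.q))) (S.al1 (S.al0 ((m : S.F0) * t⁻¹))) :=
      IntOver.map S.al1.toRingHom a1
    rw [al1_jj] at a2
    exact IntOver.mem hcl hj a2
  have hm0 : m ≠ 0 := by
    rintro rfl
    rw [Nat.coprime_zero_left] at hm
    exact S.hq.one_lt.ne' hm
  have h3 : (S.al1 (S.al0 t))⁻¹ ∈ R := by
    have e : (S.al1 (S.al0 t))⁻¹ =
        algebraMap K S.F2 ((m : ℕ) : K)⁻¹ * S.al1 (S.al0 ((m : S.F0) * t⁻¹)) := by
      have hmK : ((m : ℕ) : K) ≠ 0 := by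
        have : CharZero K := algebraRat.charZero K
        exact Nat.cast_ne_zero.2 hm0
      have hmF : ((m : ℕ) : S.F2) ≠ 0 := by
        rw [← map_natCast (algebraMap K S.F2)]
        exact (map_ne_zero _).2 hmK
      rw [map_mul, map_mul, map_natCast, map_natCast, map_inv₀, map_inv₀, map_inv₀, map_natCast,
        ← mul_assoc, inv_mul_cancel₀ hmF, one_mul]
    rw [e]
    exact R.mul_mem (hB _ (ZInt_inv_natCast_mem S hm)) h2
  exact R.sub_mem (R.mul_mem h1 h3) R.one_mem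

end Z

end Fermat.Agent.BAD.Model.EtaInst

end
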