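/-
Project BAD, block ETAINST (sub-architect helper210).  ASSEMBLY: the node `N5`
`S36.Inst.NodeNonCusp` of `S36.ModelStatement`.
-/
import Fermat.Agent.BAD.Model.EtaInst.YBasic
import Fermat.Agent.BAD.Model.EtaInst.Y20
import Fermat.Agent.BAD.Model.EtaInst.Y02
import Fermat.Agent.BAD.Model.EtaInst.Y11
import Fermat.Agent.BAD.Model.EtaInst.YInt
import Fermat.Agent.BAD.Model.EtaInst.ZCong
import Fermat.Agent.BAD.Model.EtaInst.ZInt
import Fermat.Agent.BAD.Model.EtaInst.LogDerivT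
import Fermat.Agent.BAD.Model.EtaInst.Jacobi
import Fermat.Agent.BAD.Model.EtaInst.GsEq
import Fermat.Agent.BAD.Model.EtaInst.UnitDesc
import Fermat.Agent.BAD.Model.EtaInst.UnitInt
import Fermat.Agent.BAD.Model.EtaInst.Haupt
import Fermat.Agent.S36.Inst.Nodes
import Fermat.Agent.S36.Mod.HalfInst.Main
import Fermat.Agent.BAD.Model.NonCusp.Main

set_option autoImplicit false

noncomputable section

namespace Fermat.Agent.BAD.Model.EtaInst

open ModularCurve Fermat.Agent.S24 Fermat.Agent.S18 Fermat.Agent.S18.Vert Fermat.Agent.S36.Mod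
  Fermat.Agent.S36.BP Fermat.Agent.S36.Inst
open Fermat.Agent.Lib

variable {K K' : Type*} [Field K] [Field K'] [Algebra ℚ K] [Algebra ℚ K'] [Algebra K Kbar]
  [Algebra K' Kbar] {S : Setup K K'} {Gz Tz : PowerSeries ℤ} {ε : ℤ} {x : S.F1} {t : S.F0}

/-- The part of `NonCuspData` which only depends on the modular unit; the data `(z, κ, e₃)` of the
middle component are free. -/
theorem nonCuspData_of (D : UnitData S Gz ε x) (z κ e₃ : S.F2) (hz : IsUnif S.V11 z)
    (hc : S.V11.valuation (z ^ (S.q - 1) / ((S.q : ℕ) : S.F2) * κ - e₃) < 1) :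
    NonCuspData S.q (VV S) (Yf S x) z κ
      ![1, ((ε : ℤ) : S.F2), ((ε : ℤ) : S.F2) ^ (S.q - 1), e₃] where
  prod := Yf_prod D
  lt := by
    intro c
    fin_cases c
    · exact (Yf_V20 D).1
    · exact (Yf_V11 D).1
    · exact (Yf_V02 D).1
  unit := by
    intro c c' h
    fin_cases c <;> fin_cases c'
    · exact absurd rfl h
    · exact (Yf_V11 D).2.1
    · exact (Yf_V02 D).2.2.1
    · exact (Yf_V20 D).2.1
    · exact absurd rfl h
    · exact (Yf_V02 D).2.1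
    · exact (Yf_V20 D).2.2.1
    · exact (Yf_V11 D).2.2.1
    · exact absurd rfl h
  cong0 := (Yf_V20 D).2.2.2
  cong1 := (Yf_V11 D).2.2.2
  cong2 := (Yf_V02 D).2.2.2
  unifz := hz
  congz := hc

theorem runit_intCast {F : Type*} [Field F] (R : Subring F) {ε : ℤ} (h : ε = 1 ∨ ε = -1) :
    RUnit R ((ε : ℤ) : F) := by
  rcases h with rfl | rfl
  · simpa using RUnit.one R
  · simpa using (RUnit.one R).neg

/-- Regularity of the indicator functions at the non-cuspidal points. -/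
theorem Yf_mem (D : UnitData S Gz ε x) {z κ : S.F2} {e : Fin 4 → S.F2}
    (N : NonCuspData S.q (VV S) (Yf S x) z κ e) {R : Subring S.F2}
    (hR : PtBase S.B S.q (VV S) R) (hj : S.J2one ∈ R) (c : Fin 3) : Yf S x c ∈ R := by
  obtain ⟨h0, h2, h1⟩ := intOver_Yf D
  fin_cases c
  · exact IntOver.mem hR.isPt.intClosed hj h0
  · exact N.Y1_mem hR (IntOver.mem hR.isPt.intClosed hj h1)
  · exact IntOver.mem hR.isPt.intClosed hj h2

/-- `z` is a uniformiser as soon as `z ^ (q - 1) / q * κ` is congruent to a unit, `κ` a unit. -/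
theorem isUnif_of_cong {z κ e₃ : S.F2} (hκ : S.V11.valuation κ = 1) (he : S.V11.valuation e₃ = 1)
    (hc : S.V11.valuation (z ^ (S.q - 1) / ((S.q : ℕ) : S.F2) * κ - e₃) < 1) :
    IsUnif S.V11 z := by
  have h1 : S.V11.valuation (z ^ (S.q - 1) / ((S.q : ℕ) : S.F2) * κ) = 1 := by
    have h2 : z ^ (S.q - 1) / ((S.q : ℕ) : S.F2) * κ =
        (z ^ (S.q - 1) / ((S.q : ℕ) : S.F2) * κ - e₃) + e₃ := by ring
    rw [h2, Valuation.map_add_eq_of_lt_right _ (by rw [he]; exact hc), he]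
  rw [map_mul, hκ, mul_one, map_div₀, map_pow] at h1
  have hq0 : S.V11.valuation ((S.q : ℕ) : S.F2) ≠ 0 := (map_ne_zero _).2 S.isUnif_V20.ne_zero
  have h3 : S.V11.valuation z ^ (S.q - 1) = S.V11.valuation S.tau0 ^ (S.q - 1) := by
    rw [S.ram_V11]
    exact (div_eq_one_iff_eq hq0).1 h1
  exact isUnif_of_pow S.V11 (Nat.sub_pos_of_lt S.hq.one_lt) S.isUnif_V11 h3

theorem val_intCast_eq_one {F : Type*} [Field F] (V : ValuationSubring F) {ε : ℤ}
    (h : ε = 1 ∨ ε = -1) : V.valuation ((ε : ℤ) : F) = 1 := by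
  rcases h with rfl | rfl
  · simp
  · simp

/-- The instance for `q` odd. -/
theorem exists_nonCuspData_odd (hq2 : S.q ≠ 2) (D : UnitData S Gz ε x)
    (H : HauptData S Gz Tz t) :
    ∃ (Y : Fin 3 → S.F2) (z κ : S.F2) (e : Fin 4 → S.F2), NonCuspData S.q (VV S) Y z κ e ∧
      ∀ R : Subring S.F2, PtBase S.B S.q (VV S) R → S.J2one ∈ R →
        (∀ c, Y c ∈ R) ∧ z ∈ R ∧ (∀ i, RUnit R (e i)) ∧
          (RUnit R (Y 0) → RUnit R (Y 2) → RUnit R κ) := by
  have hc := zf_cong hq2 D H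
  have hκ : S.V11.valuation (Yf S x 0 * Yf S x 2) = 1 := by
    rw [map_mul, (Yf_V11 D).2.1, (Yf_V11 D).2.2.1, one_mul]
  have he : S.V11.valuation (-((ε : ℤ) : S.F2)) = 1 := by
    rw [Valuation.map_neg, val_intCast_eq_one _ D.eps]
  have N := nonCuspData_of D (zf S t) (Yf S x 0 * Yf S x 2) (-((ε : ℤ) : S.F2))
    (isUnif_of_cong hκ he hc) hc
  refine ⟨_, _, _, _, N, fun R hR hj => ⟨fun c => Yf_mem D N hR hj c, ?_, ?_, ?_⟩⟩
  · exact zf_mem H R hR.isPt.intClosed hR.isPt.const_mem hj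
  · intro i
    fin_cases i
    · exact RUnit.one R
    · exact runit_intCast R D.eps
    · exact (runit_intCast R D.eps).pow _
    · exact (runit_intCast R D.eps).neg
  · exact fun h0 h2 => h0.mul h2

/-- The instance for `q = 2`: the middle component is unramified. -/
theorem exists_nonCuspData_two (hq2 : S.q = 2) (D : UnitData S Gz ε x) :
    ∃ (Y : Fin 3 → S.F2) (z κ : S.F2) (e : Fin 4 → S.F2), NonCuspData S.q (VV S) Y z κ e ∧
      ∀ R : Subring S.F2, PtBase S.B S.q (VV S) R → S.J2one ∈ R →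
        (∀ c, Y c ∈ R) ∧ z ∈ R ∧ (∀ i, RUnit R (e i)) ∧
          (RUnit R (Y 0) → RUnit R (Y 2) → RUnit R κ) := by
  have hq0 : ((S.q : ℕ) : S.F2) ≠ 0 := S.isUnif_V20.ne_zero
  have hc : S.V11.valuation (((S.q : ℕ) : S.F2) ^ (S.q - 1) / ((S.q : ℕ) : S.F2) * 1 - 1) < 1 := by
    have h1 : S.q - 1 = 1 := by rw [hq2]
    rw [h1, pow_one, div_self hq0, mul_one, sub_self, map_zero]
    exact zero_lt_one
  have N := nonCuspData_of D ((S.q : ℕ) : S.F2) 1 1
    (isUnif_of_cong (map_one _) (map_one _) hc) hc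
  refine ⟨_, _, _, _, N, fun R hR hj => ⟨fun c => Yf_mem D N hR hj c, natCast_mem R _, ?_, ?_⟩⟩
  · intro i
    fin_cases i
    · exact RUnit.one R
    · exact runit_intCast R D.eps
    · exact (runit_intCast R D.eps).pow _
    · exact RUnit.one R
  · exact fun _ _ => RUnit.one R

/-- `θ t₄ / t₄ = - G₄²`. -/
theorem der_T4z :
    PowerSeries.X * PowerSeries.derivative ℤ T4z - T4z = - (G4z ^ 2 * T4z) := by
  rw [X_mul_derivative_T4z, G4z_sq]
  ring

theorem exists_unitData4 (S : Setup K K') (h4 : 4 ∣ S.N0) (hq2 : S.q ≠ 2) :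
    ∃ (ε : ℤ) (x : S.F1), UnitData S G4z ε x := by
  have hm : Nat.Coprime S.q 4 := by
    have h2 : Nat.Coprime S.q 2 := (Nat.coprime_primes S.hq Nat.prime_two).2 hq2
    exact Nat.Coprime.pow_right 2 h2
  have hN : 4 * S.q ∣ S.N0 * S.q := Nat.mul_dvd_mul_right h4 _
  obtain ⟨h1, h2⟩ := intOver_unitF4 (S.N0 * S.q) S.q hm hN
  obtain ⟨x, hx⟩ := exists_unitData_of_isW1 S EtaUnit.isW1_G4 h4 hm hN h1 h2
  rw [G4s_eq] at hx
  exact ⟨_, x, hx⟩

theorem exists_unitData9 (S : Setup K K') (h9 : 9 ∣ S.N0) (hq2 : S.q = 2) :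
    ∃ (ε : ℤ) (x : S.F1), UnitData S G9z ε x := by
  have hm : Nat.Coprime S.q 9 := by rw [hq2]; decide
  have hN : 9 * S.q ∣ S.N0 * S.q := Nat.mul_dvd_mul_right h9 _
  obtain ⟨h1, h2⟩ := intOver_unitF9 (S.N0 * S.q) S.q hm hN
  obtain ⟨x, hx⟩ := exists_unitData_of_isW1 S EtaUnit.isW1_G9 h9 hm hN h1 h2
  rw [G9s_eq] at hx
  exact ⟨_, x, hx⟩

/-- **The modular instance of `NonCuspData`.** -/
theorem exists_nonCuspData (S : Setup K K') (haux : Aux S) :
    ∃ (Y : Fin 3 → S.F2) (z κ : S.F2) (e : Fin 4 → S.F2), NonCuspData S.q (VV S) Y z κ e ∧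
      ∀ R : Subring S.F2, PtBase S.B S.q (VV S) R → S.J2one ∈ R →
        (∀ c, Y c ∈ R) ∧ z ∈ R ∧ (∀ i, RUnit R (e i)) ∧
          (RUnit R (Y 0) → RUnit R (Y 2) → RUnit R κ) := by
  by_cases hq2 : S.q = 2
  · have h9 : 9 ∣ S.N0 := by
      have := haux
      rwa [Aux, if_pos hq2] at this
    obtain ⟨ε, x, D⟩ := exists_unitData9 S h9 hq2
    exact exists_nonCuspData_two hq2 D
  · have h4 : 4 ∣ S.N0 := by
      have := haux
      rwa [Aux, if_neg hq2] at this
    obtain ⟨ε, x, D⟩ := exists_unitData4 S h4 hq2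
    obtain ⟨t, H⟩ := exists_hauptData S h4 hq2 der_T4z
    exact exists_nonCuspData_odd hq2 D H

/-- **Node N5.** -/
theorem nodeNonCusp : NodeNonCusp := fun _ _ _ _ _ _ _ _ S _ haux => exists_nonCuspData S haux

end Fermat.Agent.BAD.Model.EtaInst

end
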